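/-
TEAM FF19 -> S19, block D [DESC], ABSTRACT CORE (helper38, deputy of helper56).  Definitions + statements.

No `ℚ̄`, no valuation subrings: `K` a field, `Γ` a group acting on `K` by ring automorphisms, `G` a finite abelian
group with an additive `Γ`-action, `I ≤ Γ` ("inertia"), `s ∈ Γ` ("one Frobenius lift"), `O ⊆ K^I` a subring
("`A ∩ ℚ̄^I`"), `π ∈ O` ("`l`").

INPUT : a subring `R ⊆ Map(G,K)` which is an `O`-order of `I`-equivariant functions (`IsLocOrd`).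
OUTPUT: a `K`-basis `e_i` of `Map(G,K)` made of `Γ`-equivariant functions whose structure constants (unit,
multiplication, comultiplication) lie in `O ∩ K^Γ` (`Stmt_AbsMain`).

Only Mathlib.
-/
import Mathlib

set_option autoImplicit false

noncomputable section

namespace Fermat.Agent.FF19.D

section Defs

variable {K Γ : Type} [Field K] [Group Γ] [MulSemiringAction Γ K]

/-- `φ` is equivariant for the single element `σ`. -/
def Eqv {X : Type} [MulAction Γ X] (σ : Γ) (φ : X → K) : Prop := ∀ x, φ (σ • x) = σ • φ x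

/-- conjugation of functions: `(cj σ φ)(x) = σ (φ (σ⁻¹ x))`. -/
def cj {X : Type} [MulAction Γ X] (σ : Γ) : (X → K) →+* (X → K) where
  toFun φ := fun x => σ • φ (σ⁻¹ • x)
  map_one' := by funext x; simp
  map_mul' φ ψ := by funext x; simp
  map_zero' := by funext x; simp
  map_add' φ ψ := by funext x; simp

@[simp] theorem cj_apply {X : Type} [MulAction Γ X] (σ : Γ) (φ : X → K) (x : X) :
    cj σ φ x = σ • φ (σ⁻¹ • x) := rfl

/-- the abstract arithmetic hypotheses. -/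
structure AbsHyp (I : Subgroup Γ) (s : Γ) (O : Subring K) (π : K) : Prop where
  /-- `O ⊆ K^I` -/
  fixI : ∀ x ∈ O, ∀ τ ∈ I, τ • x = x
  /-- `s` normalises `I` -/
  norm : ∀ τ ∈ I, s⁻¹ * τ * s ∈ I
  /-- `s O = O` -/
  sO : ∀ x : K, s • x ∈ O ↔ x ∈ O
  πO : π ∈ O
  π0 : π ≠ 0
  πfix : ∀ σ : Γ, σ • π = π
  /-- `π` is not a unit of `O` -/
  πnu : π⁻¹ ∉ O
  /-- [UNR] every nonzero element of `K^I` is a power of `π` times a unit of `O` -/
  unr : ∀ x : K, x ≠ 0 → (∀ τ ∈ I, τ • x = x) → ∃ k : ℤ, x * π ^ k ∈ O ∧ (x * π ^ k)⁻¹ ∈ O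
  /-- the residue field of `O^s` is the prime field -/
  res : ∀ x ∈ O, s • x = x → ∃ a ∈ O, (∀ σ : Γ, σ • a = a) ∧ (x - a) / π ∈ O
  /-- [LAG] (`z` = a root of unity of order `l ^ f - 1`) -/
  lag : ∀ f : ℕ, 0 < f → ∃ z ∈ O, s ^ f • z = z ∧
    ∀ i : ℕ, 0 < i → i < f → z - s ^ i • z ≠ 0 ∧ (z - s ^ i • z)⁻¹ ∈ O
  /-- `s`-orbits in `K` are finite -/
  fin : ∀ y : K, ∃ f : ℕ, 0 < f ∧ s ^ f • y = y

/-- `R` is an `O`-order of `I`-equivariant functions on `G`, stable under the comultiplication. -/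
structure IsLocOrd {G : Type} [AddCommGroup G] [DistribMulAction Γ G] (I : Subgroup Γ) (O : Subring K)
    (R : Subring (G → K)) : Prop where
  const : ∀ c ∈ O, (fun _ => c : G → K) ∈ R
  eqv : ∀ φ ∈ R, ∀ τ ∈ I, Eqv τ φ
  fg : ∃ (n : ℕ) (b : Fin n → G → K), (∀ i, b i ∈ R) ∧
    ∀ φ ∈ R, ∃ c : Fin n → K, (∀ i, c i ∈ O) ∧ φ = ∑ i, c i • b i
  sep : ∀ x y : G, x ≠ y → ∃ φ ∈ R, φ x ≠ φ y
  comul : ∀ φ ∈ R, ∃ (n : ℕ) (a b : Fin n → G → K), (∀ i, a i ∈ R) ∧ (∀ i, b i ∈ R) ∧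
    ∀ x y, φ (x + y) = ∑ i, a i x * b i y

end Defs

/-! ### linear algebra of functions -/

/-- (SW) a subring of `Map(X,K)` (`X` finite) separating the points spans `Map(X,K)` over `K`.
[`δ_x = ∏_{y ≠ x} (φ_{xy} - φ_{xy}(y)) / (φ_{xy}(x) - φ_{xy}(y))`; the `K`-span of a subring is a subalgebra.] -/
def Stmt_SW : Prop :=
  ∀ (K X : Type) [Field K] [Finite X] (R : Subring (X → K)),
    (∀ x y : X, x ≠ y → ∃ φ ∈ R, φ x ≠ φ y) → Submodule.span K (R : Set (X → K)) = ⊤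

/-- (FIX) coefficients of a `σ`-equivariant function in an independent family of `σ`-equivariant functions are
`σ`-fixed. -/
def Stmt_FIX : Prop :=
  ∀ (K Γ X : Type) [Field K] [Group Γ] [MulSemiringAction Γ K] [MulAction Γ X] (σ : Γ) (n : ℕ)
    (e : Fin n → X → K) (c : Fin n → K), LinearIndependent K e → (∀ i, Eqv σ (e i)) →
    Eqv σ (∑ i, c i • e i) → ∀ i, σ • c i = c i

/-- (IND) Artin: `Γ`-equivariant functions which are independent over `K^Γ` are independent over `K`. -/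
def Stmt_IND : Prop :=
  ∀ (K Γ X : Type) [Field K] [Group Γ] [MulSemiringAction Γ K] [MulAction Γ X] (n : ℕ)
    (e : Fin n → X → K), (∀ i (σ : Γ), Eqv σ (e i)) →
    (∀ c : Fin n → K, (∀ i (σ : Γ), σ • c i = c i) → ∑ i, c i • e i = 0 → ∀ i, c i = 0) →
    LinearIndependent K e

/-! ### the steps -/

/-- (P1) the compositum of the `s^j R` is an `s`-stable order. -/
def Stmt_P1 : Prop :=
  ∀ (K Γ G : Type) [Field K] [Group Γ] [MulSemiringAction Γ K] [AddCommGroup G] [Finite G]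
    [DistribMulAction Γ G] (I : Subgroup Γ) (s : Γ) (O : Subring K) (π : K) (R : Subring (G → K)),
    AbsHyp I s O π → IsLocOrd I O R →
    ∃ R' : Subring (G → K), IsLocOrd I O R' ∧ ∀ φ ∈ R', cj s φ ∈ R'

/-- (P2) trace trick: an `s`-stable order is generated over `O` by its `s`-equivariant elements. -/
def Stmt_P2 : Prop :=
  ∀ (K Γ G : Type) [Field K] [Group Γ] [MulSemiringAction Γ K] [AddCommGroup G] [Finite G]
    [DistribMulAction Γ G] (I : Subgroup Γ) (s : Γ) (O : Subring K) (π : K) (R : Subring (G → K)),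
    AbsHyp I s O π → IsLocOrd I O R → (∀ φ ∈ R, cj s φ ∈ R) →
    ∀ φ ∈ R, ∃ (n : ℕ) (c : Fin n → K) (ψ : Fin n → G → K),
      (∀ i, c i ∈ O) ∧ (∀ i, ψ i ∈ R) ∧ (∀ i, Eqv s (ψ i)) ∧ φ = ∑ i, c i • ψ i

/-- (P4) density: `K^{⟨I,s⟩} = K^Γ + π^m O`. -/
def Stmt_P4 : Prop :=
  ∀ (K Γ : Type) [Field K] [Group Γ] [MulSemiringAction Γ K]
    (I : Subgroup Γ) (s : Γ) (O : Subring K) (π : K), AbsHyp I s O π →
    ∀ x : K, (∀ τ ∈ I, τ • x = x) → s • x = x → ∀ m : ℕ,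
      ∃ q o : K, (∀ σ : Γ, σ • q = q) ∧ o ∈ O ∧ x = q + π ^ m * o

/-- (P3) every `I`-equivariant function has a multiple `π^c φ` in the order. -/
def Stmt_P3 : Prop :=
  ∀ (K Γ G : Type) [Field K] [Group Γ] [MulSemiringAction Γ K] [AddCommGroup G] [Finite G]
    [DistribMulAction Γ G] (I : Subgroup Γ) (s : Γ) (O : Subring K) (π : K) (R : Subring (G → K)),
    AbsHyp I s O π → IsLocOrd I O R →
    ∀ φ : G → K, (∀ τ ∈ I, Eqv τ φ) → ∃ c : ℕ, π ^ c • φ ∈ R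

/-- (P5a) approximation: an `s`-equivariant element of the order is congruent mod `π` to a `Γ`-equivariant one. -/
def Stmt_P5a : Prop :=
  ∀ (K Γ G : Type) [Field K] [Group Γ] [MulSemiringAction Γ K] [AddCommGroup G] [Finite G]
    [DistribMulAction Γ G] (I : Subgroup Γ) (s : Γ) (O : Subring K) (π : K) (R : Subring (G → K)),
    AbsHyp I s O π → Submodule.span K {φ : G → K | ∀ σ : Γ, Eqv σ φ} = ⊤ → IsLocOrd I O R →
    ∀ φ ∈ R, Eqv s φ → ∃ h ψ : G → K, h ∈ R ∧ (∀ σ : Γ, Eqv σ h) ∧ ψ ∈ R ∧ φ = h + π • ψ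

/-- (P5b) Nakayama + minimal generating family. -/
def Stmt_P5b : Prop :=
  ∀ (K Γ G : Type) [Field K] [Group Γ] [MulSemiringAction Γ K] [AddCommGroup G] [Finite G]
    [DistribMulAction Γ G] (I : Subgroup Γ) (s : Γ) (O : Subring K) (π : K) (R : Subring (G → K)),
    AbsHyp I s O π → IsLocOrd I O R →
    (∀ φ ∈ R, ∃ (n : ℕ) (c : Fin n → K) (h : Fin n → G → K) (ψ : G → K), (∀ i, c i ∈ O) ∧
      (∀ i, h i ∈ R) ∧ (∀ i (σ : Γ), Eqv σ (h i)) ∧ ψ ∈ R ∧ φ = ∑ i, c i • h i + π • ψ) →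
    ∃ (n : ℕ) (e : Fin n → G → K), (∀ i, e i ∈ R) ∧ (∀ i (σ : Γ), Eqv σ (e i)) ∧
      LinearIndependent K e ∧ ∀ φ ∈ R, ∃ c : Fin n → K, (∀ i, c i ∈ O) ∧ φ = ∑ i, c i • e i

/-- the shape of the output. -/
def GoodBasis {K Γ G : Type} [Field K] [Group Γ] [MulSemiringAction Γ K] [AddCommGroup G]
    [DistribMulAction Γ G] (O : Subring K) (n : ℕ) (e : Fin n → G → K) : Prop :=
  (∀ i (σ : Γ), Eqv σ (e i)) ∧ LinearIndependent K e ∧ Submodule.span K (Set.range e) = ⊤ ∧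
  (∃ c : Fin n → K, (∀ i, c i ∈ O ∧ ∀ σ : Γ, σ • c i = c i) ∧ (1 : G → K) = ∑ i, c i • e i) ∧
  (∀ i j, ∃ c : Fin n → K, (∀ k, c k ∈ O ∧ ∀ σ : Γ, σ • c k = c k) ∧ e i * e j = ∑ k, c k • e k) ∧
  (∀ i, ∃ c : Fin n → Fin n → K, (∀ j k, c j k ∈ O ∧ ∀ σ : Γ, σ • c j k = c j k) ∧
    ∀ x y, e i (x + y) = ∑ j, ∑ k, c j k * (e j x * e k y))

/-- (P5c) an `O`-basis of an order made of `Γ`-equivariant functions is a good basis. -/
def Stmt_P5c : Prop :=
  ∀ (K Γ G : Type) [Field K] [Group Γ] [MulSemiringAction Γ K] [AddCommGroup G] [Finite G]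
    [DistribMulAction Γ G] (I : Subgroup Γ) (O : Subring K) (R : Subring (G → K)),
    IsLocOrd I O R → ∀ (n : ℕ) (e : Fin n → G → K), (∀ i, e i ∈ R) → (∀ i (σ : Γ), Eqv σ (e i)) →
      LinearIndependent K e → (∀ φ ∈ R, ∃ c : Fin n → K, (∀ i, c i ∈ O) ∧ φ = ∑ i, c i • e i) →
      GoodBasis (Γ := Γ) O n e

/-- **THE ABSTRACT DESCENT THEOREM.** -/
def Stmt_AbsMain : Prop :=
  ∀ (K Γ G : Type) [Field K] [Group Γ] [MulSemiringAction Γ K] [AddCommGroup G] [Finite G]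
    [DistribMulAction Γ G] (I : Subgroup Γ) (s : Γ) (O : Subring K) (π : K) (R : Subring (G → K)),
    AbsHyp I s O π → Submodule.span K {φ : G → K | ∀ σ : Γ, Eqv σ φ} = ⊤ → IsLocOrd I O R →
    ∃ (n : ℕ) (e : Fin n → G → K), GoodBasis (Γ := Γ) O n e

/-- assembly. -/
theorem absMain_of (h1 : Stmt_P1) (h2 : Stmt_P2) (h5a : Stmt_P5a) (h5b : Stmt_P5b) (h5c : Stmt_P5c) :
    Stmt_AbsMain := by
  intro K Γ G _ _ _ _ _ _ I s O π R hA hGal hR
  obtain ⟨R', hR', hs⟩ := h1 K Γ G I s O π R hA hR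
  obtain ⟨n, e, he1, he2, he3, he4⟩ := h5b K Γ G I s O π R' hA hR' (by
    intro φ hφ
    obtain ⟨n, c, ψ, hc, hψ, hψs, rfl⟩ := h2 K Γ G I s O π R' hA hR' hs φ hφ
    choose h χ hh1 hh2 hχ hhχ using fun i => h5a K Γ G I s O π R' hA hGal hR' (ψ i) (hψ i) (hψs i)
    refine ⟨n, c, h, ∑ i, c i • χ i, hc, hh1, hh2, ?_, ?_⟩
    · refine Subring.sum_mem _ fun i _ => ?_
      have : c i • χ i = (fun _ => c i : G → K) * χ i := by funext x; simp
      rw [this]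
      exact R'.mul_mem (hR'.const _ (hc i)) (hχ i)
    · rw [Finset.smul_sum, ← Finset.sum_add_distrib]
      refine Finset.sum_congr rfl fun i _ => ?_
      conv_lhs => rw [hhχ i]
      rw [smul_add, smul_comm])
  exact ⟨n, e, h5c K Γ G I O R' hR' n e he1 he2 he3 he4⟩

end Fermat.Agent.FF19.D

end
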