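/-
TEAM FF19 -> S19, block D [DESC], task FFD-A2 (helper83): (FIX) and (IND), Artin independence for equivariant
functions.
-/
import Fermat.Agent.FF19.D.AbsDefs

set_option autoImplicit false

noncomputable section

namespace Fermat.Agent.FF19.D

/-- `σ (∑ c_i e_i (x)) = ∑ σ(c_i) e_i (σ x)`. -/
theorem AbsInd_twist {K Γ X : Type} [Field K] [Group Γ] [MulSemiringAction Γ K] [MulAction Γ X]
    (σ : Γ) {n : ℕ} (e : Fin n → X → K) (c : Fin n → K) (he : ∀ i, Eqv σ (e i)) (x : X) :
    σ • ((∑ i, c i • e i) x) = (∑ i, (σ • c i) • e i) (σ • x) := by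
  simp only [Finset.sum_apply, Pi.smul_apply, smul_eq_mul, Finset.smul_sum, smul_mul']
  refine Finset.sum_congr rfl fun i _ => ?_
  rw [he i x]

/-- (FIX) -/
theorem stmt_FIX : Stmt_FIX := by
  intro K Γ X _ _ _ _ σ n e c hli he hψ i
  have h0 : ∑ i, (σ • c i - c i) • e i = 0 := by
    funext y
    have h1 := AbsInd_twist σ e c he (σ⁻¹ • y)
    have h2 := hψ (σ⁻¹ • y)
    rw [smul_inv_smul] at h1 h2
    simp only [sub_smul, Finset.sum_sub_distrib, Pi.sub_apply, Pi.zero_apply]
    rw [← h1, ← h2, sub_self]
  exact sub_eq_zero.1 (Fintype.linearIndependent_iff.1 hli _ h0 i)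

/-- (IND) -/
theorem stmt_IND : Stmt_IND := by
  intro K Γ X _ _ _ _ n e he hfix
  classical
  rw [Fintype.linearIndependent_iff]
  have key : ∀ (m : ℕ) (c : Fin n → K), (Finset.univ.filter fun i => c i ≠ 0).card = m →
      ∑ i, c i • e i = 0 → ∀ i, c i = 0 := by
    intro m
    induction m using Nat.strong_induction_on with
    | _ m ih =>
      intro c hm hc
      by_contra hne
      push Not at hne
      obtain ⟨i₀, hi₀⟩ := hne
      obtain ⟨d, hd⟩ : ∃ d : Fin n → K, d = fun i => c i * (c i₀)⁻¹ := ⟨_, rfl⟩
      have hd0 : d i₀ = 1 := by rw [hd]; exact mul_inv_cancel₀ hi₀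
      have hdsum : ∑ i, d i • e i = 0 := by
        have : ∑ i, d i • e i = (c i₀)⁻¹ • ∑ i, c i • e i := by
          rw [Finset.smul_sum]
          refine Finset.sum_congr rfl fun i _ => ?_
          rw [smul_smul, mul_comm, hd]
        rw [this, hc, smul_zero]
      have hdfix : ∀ i (σ : Γ), σ • d i = d i := by
        intro i σ
        have hs : ∑ i, (σ • d i) • e i = 0 := by
          funext y
          have h1 := AbsInd_twist σ e d (fun i => he i σ) (σ⁻¹ • y)
          rw [smul_inv_smul, hdsum, Pi.zero_apply, smul_zero] at h1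
          rw [← h1, Pi.zero_apply]
        have hs' : ∑ i, (σ • d i - d i) • e i = 0 := by
          simp only [sub_smul, Finset.sum_sub_distrib, hs, hdsum, sub_self]
        have hlt : (Finset.univ.filter fun i => σ • d i - d i ≠ 0).card < m := by
          rw [← hm]
          apply Finset.card_lt_card
          rw [Finset.ssubset_iff_of_subset]
          · exact ⟨i₀, by simp [hi₀], by simp [hd0]⟩
          · intro i hi
            simp only [Finset.mem_filter, Finset.mem_univ, true_and] at hi ⊢
            intro h0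
            apply hi
            simp [hd, h0]
        exact sub_eq_zero.1 (ih _ hlt _ rfl hs' i)
      have := hfix d hdfix hdsum i₀
      rw [hd0] at this
      exact one_ne_zero this
  exact fun c hc => key _ c rfl hc

end Fermat.Agent.FF19.D

end
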