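/-
TEAM FF19 -> S19, block D [DESC], abstract core.  FFD-A3 (P1) : the `s`-stable compositum of an order.
-/
import Fermat.Agent.FF19.D.AbsDefs

set_option autoImplicit false

noncomputable section

namespace Fermat.Agent.FF19.D

section AbsP1

variable {K Γ : Type} [Field K] [Group Γ] [MulSemiringAction Γ K]

theorem AbsP1_cj_mul {X : Type} [MulAction Γ X] (σ τ : Γ) (φ : X → K) :
    cj (σ * τ) φ = cj σ (cj τ φ) := by
  funext x
  simp [mul_smul, mul_inv_rev]

theorem AbsP1_cj_one {X : Type} [MulAction Γ X] (φ : X → K) : cj (1 : Γ) φ = φ := by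
  funext x
  simp

theorem AbsP1_cj_succ {X : Type} [MulAction Γ X] (s : Γ) (j : ℕ) (φ : X → K) :
    cj (s ^ (j + 1)) φ = cj s (cj (s ^ j) φ) := by
  rw [pow_succ', AbsP1_cj_mul]

theorem AbsP1_pow_mul_fix {α : Type} [MulAction Γ α] (s : Γ) (a c : ℕ) (y : α)
    (h : s ^ a • y = y) : s ^ (a * c) • y = y := by
  induction c with
  | zero => simp
  | succ c ih => rw [Nat.mul_succ, pow_add, mul_smul, h, ih]

theorem AbsP1_common {α : Type} [MulAction Γ α] (s : Γ) (T : Finset α)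
    (h : ∀ y ∈ T, ∃ f : ℕ, 0 < f ∧ s ^ f • y = y) :
    ∃ f : ℕ, 0 < f ∧ ∀ y ∈ T, s ^ f • y = y := by
  classical
  induction T using Finset.induction_on with
  | empty => exact ⟨1, one_pos, by simp⟩
  | insert a T ha ih =>
    obtain ⟨f1, hf1, h1⟩ := ih (fun y hy => h y (Finset.mem_insert_of_mem hy))
    obtain ⟨f2, hf2, h2⟩ := h a (Finset.mem_insert_self a T)
    refine ⟨f1 * f2, Nat.mul_pos hf1 hf2, ?_⟩
    intro y hy
    rcases Finset.mem_insert.1 hy with rfl | hy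
    · rw [Nat.mul_comm]
      exact AbsP1_pow_mul_fix s f2 f1 _ h2
    · exact AbsP1_pow_mul_fix s f1 f2 y (h1 y hy)

theorem AbsP1_finG {G : Type} [Finite G] [MulAction Γ G] (s : Γ) :
    ∃ f : ℕ, 0 < f ∧ ∀ x : G, s ^ f • x = x := by
  have h := isOfFinOrder_of_finite (MulAction.toPermHom Γ G s)
  refine ⟨orderOf (MulAction.toPermHom Γ G s), h.orderOf_pos, fun x => ?_⟩
  have h2 := pow_orderOf_eq_one (MulAction.toPermHom Γ G s)
  rw [← map_pow] at h2
  have h3 := congrArg (fun e : Equiv.Perm G => e x) h2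
  simpa using h3

/-- conjugation by `s` preserves `I`-equivariance. -/
theorem AbsP1_eqv_cj {X : Type} [MulAction Γ X] (I : Subgroup Γ) (s : Γ)
    (hn : ∀ τ ∈ I, s⁻¹ * τ * s ∈ I) (φ : X → K) (h : ∀ τ ∈ I, Eqv τ φ) :
    ∀ τ ∈ I, Eqv τ (cj s φ) := by
  intro τ hτ x
  have h1 := h _ (hn τ hτ) (s⁻¹ • x)
  have e1 : (s⁻¹ * τ * s) • s⁻¹ • x = s⁻¹ • τ • x := by
    simp [mul_smul]
  rw [e1] at h1
  rw [cj_apply, cj_apply, h1]
  simp [mul_smul]

theorem AbsP1_eqv_pow {X : Type} [MulAction Γ X] (I : Subgroup Γ) (s : Γ)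
    (hn : ∀ τ ∈ I, s⁻¹ * τ * s ∈ I) (φ : X → K) (h : ∀ τ ∈ I, Eqv τ φ) (j : ℕ) :
    ∀ τ ∈ I, Eqv τ (cj (s ^ j) φ) := by
  induction j with
  | zero => rw [pow_zero, AbsP1_cj_one]; exact h
  | succ j ih => rw [AbsP1_cj_succ]; exact AbsP1_eqv_cj I s hn _ ih

/-- decompositions with an arbitrary finite index type. -/
def AbsP1_Dec {G : Type} [Add G] (R : Set (G → K)) (φ : G → K) : Prop :=
  ∃ (ι : Type) (_ : Fintype ι) (a b : ι → G → K), (∀ i, a i ∈ R) ∧ (∀ i, b i ∈ R) ∧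
    ∀ x y, φ (x + y) = ∑ i, a i x * b i y

theorem AbsP1_Dec_fin {G : Type} [Add G] (R : Set (G → K)) (φ : G → K) (h : AbsP1_Dec R φ) :
    ∃ (n : ℕ) (a b : Fin n → G → K), (∀ i, a i ∈ R) ∧ (∀ i, b i ∈ R) ∧
      ∀ x y, φ (x + y) = ∑ i, a i x * b i y := by
  obtain ⟨ι, _, a, b, ha, hb, h⟩ := h
  refine ⟨Fintype.card ι, a ∘ (Fintype.equivFin ι).symm, b ∘ (Fintype.equivFin ι).symm,
    fun i => ha _, fun i => hb _, fun x y => ?_⟩
  rw [h x y]
  exact (Equiv.sum_comp (Fintype.equivFin ι).symm (fun i => a i x * b i y)).symm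

theorem AbsP1_Dec_add {G : Type} [Add G] (R : Set (G → K)) (φ ψ : G → K) (h1 : AbsP1_Dec R φ)
    (h2 : AbsP1_Dec R ψ) : AbsP1_Dec R (φ + ψ) := by
  obtain ⟨ι, _, a, b, ha, hb, h⟩ := h1
  obtain ⟨κ, _, a', b', ha', hb', h'⟩ := h2
  refine ⟨ι ⊕ κ, inferInstance, Sum.elim a a', Sum.elim b b', ?_, ?_, fun x y => ?_⟩
  · rintro (i | i)
    · exact ha i
    · exact ha' i
  · rintro (i | i)
    · exact hb i
    · exact hb' i
  · rw [Pi.add_apply, h x y, h' x y, Fintype.sum_sum_type]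
    rfl

theorem AbsP1_Dec_mul {G : Type} [Add G] (R : Subring (G → K)) (φ ψ : G → K)
    (h1 : AbsP1_Dec (R : Set (G → K)) φ) (h2 : AbsP1_Dec (R : Set (G → K)) ψ) :
    AbsP1_Dec (R : Set (G → K)) (φ * ψ) := by
  obtain ⟨ι, _, a, b, ha, hb, h⟩ := h1
  obtain ⟨κ, _, a', b', ha', hb', h'⟩ := h2
  refine ⟨ι × κ, inferInstance, fun p => a p.1 * a' p.2, fun p => b p.1 * b' p.2,
    fun p => R.mul_mem (ha _) (ha' _), fun p => R.mul_mem (hb _) (hb' _), fun x y => ?_⟩
  rw [Pi.mul_apply, h x y, h' x y, Finset.sum_mul_sum, Fintype.sum_prod_type]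
  refine Finset.sum_congr rfl fun i _ => Finset.sum_congr rfl fun j _ => ?_
  simp only [Pi.mul_apply]
  ring

end AbsP1

theorem stmt_P1 : Stmt_P1 := by
  intro K Γ G _ _ _ _ _ _ I s O π R hA hR
  classical
  obtain ⟨n, b, hb, hgen⟩ := hR.fg
  have := Fintype.ofFinite G
  -- a common period
  obtain ⟨f1, hf1, hG⟩ := AbsP1_finG (G := G) s
  obtain ⟨f2, hf2, hT⟩ := AbsP1_common s
    (Finset.univ.image (fun p : Fin n × G => b p.1 p.2)) (fun y _ => hA.fin y)
  obtain ⟨f, hf⟩ : ∃ f, f = f1 * f2 := ⟨_, rfl⟩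
  have hfpos : 0 < f := hf ▸ Nat.mul_pos hf1 hf2
  have hper : ∀ i, cj (s ^ f) (b i) = b i := by
    intro i
    funext x
    have h1 : s ^ f • x = x := hf ▸ AbsP1_pow_mul_fix s f1 f2 x (hG x)
    have h2 : (s ^ f)⁻¹ • x = x := by rw [inv_smul_eq_iff, h1]
    rw [cj_apply, h2, hf, Nat.mul_comm]
    exact AbsP1_pow_mul_fix s f2 f1 _
      (hT _ (Finset.mem_image.2 ⟨(i, x), Finset.mem_univ _, rfl⟩))
  have hsO : ∀ (j : ℕ) (x : K), x ∈ O → s ^ j • x ∈ O := by
    intro j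
    induction j with
    | zero => intro x hx; simpa using hx
    | succ j ih => intro x hx; rw [pow_succ', mul_smul]; exact (hA.sO _).2 (ih x hx)
  -- the generators
  let S : Set (G → K) := {ψ | ∃ j : ℕ, j < f ∧ ∃ i, ψ = cj (s ^ j) (b i)}
  have hSfin : S.Finite := by
    have : S ⊆ Set.range (fun p : Fin f × Fin n => cj (s ^ (p.1 : ℕ)) (b p.2)) := by
      rintro ψ ⟨j, hj, i, rfl⟩
      exact ⟨(⟨j, hj⟩, i), rfl⟩
    exact (Set.finite_range _).subset this
  let A0 : Subalgebra O (G → K) := Algebra.adjoin O S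
  have hconstA : ∀ c ∈ O, (fun _ => c : G → K) ∈ A0 := fun c hc => A0.algebraMap_mem ⟨c, hc⟩
  have hbA : ∀ i, b i ∈ A0 := fun i =>
    Algebra.subset_adjoin ⟨0, hfpos, i, by rw [pow_zero, AbsP1_cj_one]⟩
  have hRA : ∀ φ ∈ R, φ ∈ A0 := by
    intro φ hφ
    obtain ⟨c, hc, rfl⟩ := hgen φ hφ
    refine Subalgebra.sum_mem _ fun i _ => ?_
    exact A0.smul_mem (hbA i) (⟨c i, hc i⟩ : O)
  have hstab : ∀ φ ∈ A0, cj s φ ∈ A0 := by
    intro φ hφ
    induction hφ using Algebra.adjoin_induction with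
    | mem x hx =>
      obtain ⟨j, hj, i, rfl⟩ := hx
      rw [← AbsP1_cj_succ]
      by_cases h : j + 1 < f
      · exact Algebra.subset_adjoin ⟨j + 1, h, i, rfl⟩
      · have : j + 1 = f := by omega
        rw [this, hper]
        exact hbA i
    | algebraMap c =>
      have : cj s (algebraMap O (G → K) c) = fun _ => s • (c : K) := by
        funext x
        rfl
      rw [this]
      exact hconstA _ ((hA.sO _).2 c.2)
    | add x y _ _ hx hy => rw [map_add]; exact A0.add_mem hx hy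
    | mul x y _ _ hx hy => rw [map_mul]; exact A0.mul_mem hx hy
  have hstabj : ∀ (j : ℕ), ∀ φ ∈ A0, cj (s ^ j) φ ∈ A0 := by
    intro j
    induction j with
    | zero => intro φ hφ; rw [pow_zero, AbsP1_cj_one]; exact hφ
    | succ j ih => intro φ hφ; rw [AbsP1_cj_succ]; exact hstab _ (ih φ hφ)
  have heqv : ∀ φ ∈ A0, ∀ τ ∈ I, Eqv τ φ := by
    intro φ hφ τ hτ
    induction hφ using Algebra.adjoin_induction with
    | mem x hx =>
      obtain ⟨j, hj, i, rfl⟩ := hx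
      exact AbsP1_eqv_pow I s hA.norm (b i) (hR.eqv _ (hb i)) j τ hτ
    | algebraMap c =>
      intro x
      exact (hA.fixI c c.2 τ hτ).symm
    | add x y _ _ hx hy =>
      intro z
      rw [Pi.add_apply, Pi.add_apply, hx z, hy z, smul_add]
    | mul x y _ _ hx hy =>
      intro z
      rw [Pi.mul_apply, Pi.mul_apply, hx z, hy z, smul_mul']
  -- integrality
  let RA : Subalgebra O (G → K) :=
    { R.toSubsemiring with algebraMap_mem' := fun c => hR.const c c.2 }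
  have hRAfg : (Subalgebra.toSubmodule RA).FG := by
    refine Submodule.fg_iff_exists_fin_generating_family.2 ⟨n, b, le_antisymm ?_ ?_⟩
    · refine Submodule.span_le.2 ?_
      rintro _ ⟨i, rfl⟩
      exact hb i
    · intro φ hφ
      obtain ⟨c, hc, rfl⟩ := hgen φ hφ
      refine Submodule.sum_mem _ fun i _ => ?_
      exact Submodule.smul_mem _ (⟨c i, hc i⟩ : O) (Submodule.subset_span ⟨i, rfl⟩)
  have hint : ∀ ψ ∈ S, IsIntegral O ψ := by
    rintro ψ ⟨j, hj, i, rfl⟩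
    have h0 : IsIntegral O (b i) := IsIntegral.of_mem_of_fg RA hRAfg (b i) (hb i)
    let φO : O →+* O :=
      (MulSemiringAction.toRingHom Γ K (s ^ j)).restrict O O (fun x hx => hsO j x hx)
    refine IsIntegral.map_of_comp_eq φO (cj (s ^ j)) ?_ h0
    ext c x
    rfl
  have hFG := fg_adjoin_of_finite hSfin hint
  -- comultiplication
  have hdec : ∀ φ ∈ A0, AbsP1_Dec ((A0.toSubring : Subring (G → K)) : Set (G → K)) φ := by
    intro φ hφ
    induction hφ using Algebra.adjoin_induction with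
    | mem x hx =>
      obtain ⟨j, hj, i, rfl⟩ := hx
      obtain ⟨m, a, b', ha, hb', h⟩ := hR.comul (b i) (hb i)
      refine ⟨Fin m, inferInstance, fun k => cj (s ^ j) (a k), fun k => cj (s ^ j) (b' k),
        fun k => hstabj j _ (hRA _ (ha k)), fun k => hstabj j _ (hRA _ (hb' k)), fun x y => ?_⟩
      rw [cj_apply, smul_add, h, Finset.smul_sum]
      refine Finset.sum_congr rfl fun k _ => ?_
      rw [smul_mul']
      rfl
    | algebraMap c =>
      refine ⟨Unit, inferInstance, fun _ => algebraMap O (G → K) c, fun _ => 1,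
        fun _ => A0.algebraMap_mem c, fun _ => A0.one_mem, fun x y => ?_⟩
      simp
    | add x y _ _ hx hy => exact AbsP1_Dec_add _ _ _ hx hy
    | mul x y _ _ hx hy => exact AbsP1_Dec_mul _ _ _ hx hy
  refine ⟨A0.toSubring, ⟨hconstA, heqv, ?_, ?_, ?_⟩, hstab⟩
  · obtain ⟨m, e, he⟩ := Submodule.fg_iff_exists_fin_generating_family.1 hFG
    refine ⟨m, e, fun i => ?_, fun φ hφ => ?_⟩
    · have : e i ∈ Subalgebra.toSubmodule A0 := he ▸ Submodule.subset_span ⟨i, rfl⟩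
      exact this
    · have h1 : φ ∈ Submodule.span O (Set.range e) := by
        rw [he]
        exact hφ
      obtain ⟨c, hc⟩ := (Submodule.mem_span_range_iff_exists_fun O).1 h1
      exact ⟨fun i => (c i : K), fun i => (c i).2, by rw [← hc]; rfl⟩
  · intro x y hxy
    obtain ⟨φ, hφ, h⟩ := hR.sep x y hxy
    exact ⟨φ, hRA φ hφ, h⟩
  · intro φ hφ
    exact AbsP1_Dec_fin _ φ (hdec φ hφ)

end Fermat.Agent.FF19.D

end
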