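/-
TEAM FF19 -> S19, block D [DESC], abstract core, task FFD-A4 : (P2) the trace trick (Lagrange interpolation).
-/
import Fermat.Agent.FF19.D.AbsDefs

set_option autoImplicit false

noncomputable section

namespace Fermat.Agent.FF19.D

open Polynomial

section

variable {K Γ : Type} [Field K] [Group Γ] [MulSemiringAction Γ K] {X : Type} [MulAction Γ X]

theorem AbsP2_cj_one (φ : X → K) : cj (1 : Γ) φ = φ := by
  funext x
  simp

theorem AbsP2_cj_mul (σ τ : Γ) (φ : X → K) : cj (σ * τ) φ = cj σ (cj τ φ) := by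
  funext x
  simp [mul_smul]

theorem AbsP2_cj_smul (σ : Γ) (c : K) (φ : X → K) : cj σ (c • φ) = (σ • c) • cj σ φ := by
  funext x
  simp

theorem AbsP2_cj_pow_mem (s : Γ) (R : Subring (X → K)) (h : ∀ φ ∈ R, cj s φ ∈ R) (i : ℕ) :
    ∀ φ ∈ R, cj (s ^ i) φ ∈ R := by
  induction i with
  | zero =>
    intro φ hφ
    rw [pow_zero, AbsP2_cj_one]
    exact hφ
  | succ i ih =>
    intro φ hφ
    rw [pow_succ', AbsP2_cj_mul]
    exact h _ (ih φ hφ)

theorem AbsP2_eqv_of_cj (s : Γ) (ψ : X → K) (h : cj s ψ = ψ) : Eqv s ψ := by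
  intro x
  have := congrFun h (s • x)
  rw [cj_apply, inv_smul_smul] at this
  exact this.symm

theorem AbsP2_fix_mul {Y : Type} [MulAction Γ Y] (s : Γ) (a : ℕ) (y : Y) (h : s ^ a • y = y)
    (b : ℕ) : s ^ (a * b) • y = y := by
  induction b with
  | zero => simp
  | succ b ih => rw [Nat.mul_succ, pow_add, mul_smul, h, ih]

/-- the trace `∑_{i<f} s^i θ` of an element fixed by `s^f` is fixed by `s`. -/
theorem AbsP2_trace (s : Γ) (f : ℕ) (θ : X → K) (h : cj (s ^ f) θ = θ) :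
    cj s (∑ i ∈ Finset.range f, cj (s ^ i) θ) = ∑ i ∈ Finset.range f, cj (s ^ i) θ := by
  rw [map_sum]
  have h1 : ∀ i, cj s (cj (s ^ i) θ) = cj (s ^ (i + 1)) θ := fun i => by
    rw [pow_succ', AbsP2_cj_mul]
  simp only [h1]
  have h2 := Finset.sum_range_succ (fun i => cj (s ^ i) θ) f
  have h3 := Finset.sum_range_succ' (fun i => cj (s ^ i) θ) f
  rw [h2, h, pow_zero, AbsP2_cj_one] at h3
  exact (add_right_cancel h3).symm

end

/-- a common period. -/
theorem AbsP2_period {K Γ G : Type} [Field K] [Group Γ] [MulSemiringAction Γ K] [Finite G]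
    [MulAction Γ G] (s : Γ) (hfin : ∀ y : K, ∃ f : ℕ, 0 < f ∧ s ^ f • y = y) (φ : G → K) :
    ∃ f : ℕ, 0 < f ∧ cj (s ^ f) φ = φ := by
  classical
  cases nonempty_fintype G
  choose fx hfx0 hfx using fun x : G => hfin (φ x)
  set p := MulAction.toPermHom Γ G s with hp
  set f₁ := orderOf p with hf₁
  have hf₁0 : 0 < f₁ := orderOf_pos p
  have hG : ∀ x : G, s ^ f₁ • x = x := by
    intro x
    have h1 : p ^ f₁ = 1 := pow_orderOf_eq_one p
    rw [hp, ← map_pow] at h1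
    have := congrArg (fun e : Equiv.Perm G => e x) h1
    exact this
  refine ⟨f₁ * ∏ x, fx x, Nat.mul_pos hf₁0 (Finset.prod_pos fun x _ => hfx0 x), ?_⟩
  funext x
  rw [cj_apply]
  have h1 : s ^ (f₁ * ∏ x, fx x) • x = x := AbsP2_fix_mul s f₁ x (hG x) _
  have h2 : (s ^ (f₁ * ∏ x, fx x))⁻¹ • x = x := by
    rw [inv_smul_eq_iff, h1]
  rw [h2]
  obtain ⟨k, hk⟩ : fx x ∣ f₁ * ∏ x, fx x :=
    Dvd.dvd.mul_left (Finset.dvd_prod_of_mem fx (Finset.mem_univ x)) _
  rw [hk]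
  exact AbsP2_fix_mul s (fx x) (φ x) (hfx x) k

/-- **(P2)** -/
theorem stmt_P2 : Stmt_P2 := by
  intro K Γ G _ _ _ _ _ _ I s O π R hA hR hs φ hφ
  classical
  obtain ⟨f, hf0, hf⟩ := AbsP2_period s hA.fin φ
  obtain ⟨z, hzO, hzf, hz⟩ := hA.lag f hf0
  have hzi : ∀ i : ℕ, s ^ i • z ∈ O := by
    intro i
    induction i with
    | zero => simpa using hzO
    | succ i ih =>
      rw [pow_succ', mul_smul]
      exact (hA.sO _).2 ih
  -- the Lagrange polynomial
  set P : K[X] := ∏ i ∈ Finset.Ioo 0 f, (C ((z - s ^ i • z)⁻¹) * (X + C (-(s ^ i • z)))) with hP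
  have hPl : P ∈ lifts O.subtype := by
    refine Subsemiring.prod_mem _ fun i hi => ?_
    obtain ⟨hi0, hif⟩ := Finset.mem_Ioo.1 hi
    refine Subsemiring.mul_mem _ ?_ (Subsemiring.add_mem _ (X_mem_lifts _) ?_)
    · exact C_mem_lifts O.subtype ⟨_, (hz i hi0 hif).2⟩
    · exact C_mem_lifts O.subtype ⟨_, O.neg_mem (hzi i)⟩
  have hPc : ∀ j, P.coeff j ∈ O := by
    intro j
    obtain ⟨a, ha⟩ := (lifts_iff_coeff_lifts P).1 hPl j
    rw [← ha]
    exact a.2
  have hPe : ∀ y : K, P.eval y = ∏ i ∈ Finset.Ioo 0 f, ((z - s ^ i • z)⁻¹ * (y - s ^ i • z)) := by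
    intro y
    rw [hP, eval_prod]
    refine Finset.prod_congr rfl fun i _ => ?_
    simp [sub_eq_add_neg]
  have hP0 : P.eval z = 1 := by
    rw [hPe]
    refine Finset.prod_eq_one fun i hi => ?_
    obtain ⟨hi0, hif⟩ := Finset.mem_Ioo.1 hi
    exact inv_mul_cancel₀ (hz i hi0 hif).1
  have hPi : ∀ i, 0 < i → i < f → P.eval (s ^ i • z) = 0 := by
    intro i hi0 hif
    rw [hPe]
    refine Finset.prod_eq_zero (Finset.mem_Ioo.2 ⟨hi0, hif⟩) ?_
    rw [sub_self, mul_zero]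
  -- the traces
  have hθR : ∀ j : ℕ, z ^ j • φ ∈ R := by
    intro j
    have : z ^ j • φ = (fun _ => z ^ j : G → K) * φ := by funext x; simp
    rw [this]
    exact R.mul_mem (hR.const _ (O.pow_mem hzO j)) hφ
  have hθf : ∀ j : ℕ, cj (s ^ f) (z ^ j • φ) = z ^ j • φ := by
    intro j
    rw [AbsP2_cj_smul, hf, smul_pow', hzf]
  refine ⟨P.natDegree + 1, fun j => P.coeff j,
    fun j => ∑ i ∈ Finset.range f, cj (s ^ i) (z ^ (j : ℕ) • φ), fun j => hPc j, fun j => ?_,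
    fun j => ?_, ?_⟩
  · exact Subring.sum_mem _ fun i _ => AbsP2_cj_pow_mem s R hs i _ (hθR j)
  · exact AbsP2_eqv_of_cj s _ (AbsP2_trace s f _ (hθf j))
  · rw [Fin.sum_univ_eq_sum_range
      (fun j => P.coeff j • ∑ i ∈ Finset.range f, cj (s ^ i) (z ^ j • φ)) (P.natDegree + 1)]
    simp only [Finset.smul_sum]
    rw [Finset.sum_comm]
    have h1 : ∀ i, ∑ j ∈ Finset.range (P.natDegree + 1), P.coeff j • cj (s ^ i) (z ^ j • φ)
        = P.eval (s ^ i • z) • cj (s ^ i) φ := by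
      intro i
      rw [eval_eq_sum_range, Finset.sum_smul]
      refine Finset.sum_congr rfl fun j _ => ?_
      rw [AbsP2_cj_smul, smul_pow', smul_smul]
    simp only [h1]
    rw [Finset.sum_eq_single 0]
    · rw [pow_zero, one_smul, hP0, one_smul, AbsP2_cj_one]
    · intro i hi hi0
      rw [hPi i (Nat.pos_of_ne_zero hi0) (Finset.mem_range.1 hi), zero_smul]
    · intro h
      exact absurd (Finset.mem_range.2 hf0) h

end Fermat.Agent.FF19.D

end
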