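/-
TEAM FF19 -> S19, block D [DESC], abstract core, (P3) : every `I`-equivariant function has a multiple
`π ^ c • φ` in the order (task 1761).
-/
import Fermat.Agent.FF19.D.AbsDefs

set_option autoImplicit false

noncomputable section

namespace Fermat.Agent.FF19.D

/-- an `I`-fixed element has all its large `π`-multiples in `O`. -/
theorem AbsP3_mul_mem {K Γ : Type} [Field K] [Group Γ] [MulSemiringAction Γ K]
    {I : Subgroup Γ} {s : Γ} {O : Subring K} {π : K} (hA : AbsHyp I s O π) (a : K)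
    (ha : ∀ τ ∈ I, τ • a = a) : ∃ m : ℕ, ∀ c : ℕ, m ≤ c → π ^ c * a ∈ O := by
  by_cases h0 : a = 0
  · exact ⟨0, fun c _ => by rw [h0, mul_zero]; exact O.zero_mem⟩
  obtain ⟨k, hk, -⟩ := hA.unr a h0 ha
  refine ⟨k.toNat, fun c hc => ?_⟩
  have hck : k ≤ (c : ℤ) := le_trans (Int.self_le_toNat k) (by exact_mod_cast hc)
  obtain ⟨d, hd⟩ : ∃ d : ℕ, (c : ℤ) = k + d := ⟨((c : ℤ) - k).toNat, by omega⟩
  have h1 : π ^ c * a = (a * π ^ k) * π ^ d := by
    rw [mul_assoc, ← zpow_natCast π d, ← zpow_add₀ hA.π0, ← hd, zpow_natCast, mul_comm]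
  rw [h1]
  exact O.mul_mem hk (O.pow_mem hA.πO d)

theorem stmt_P3 (hSW : Stmt_SW) (hFIX : Stmt_FIX) : Stmt_P3 := by
  intro K Γ G _ _ _ _ _ _ I s O π R hA hR φ hφ
  classical
  have htop : Submodule.span K (R : Set (G → K)) = ⊤ := hSW K G R hR.sep
  obtain ⟨b, hbR, hbspan, hbli⟩ := exists_linearIndependent K (R : Set (G → K))
  have hbfin : Finite b := hbli.finite
  let E : b ≃ Fin (Nat.card b) := Finite.equivFin b
  let e : Fin (Nat.card b) → G → K := fun i => ((E.symm i : b) : G → K)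
  have heR : ∀ i, e i ∈ R := fun i => hbR (E.symm i).2
  have heli : LinearIndependent K e := hbli.comp _ E.symm.injective
  have hrange : Set.range e = b := by
    ext x
    constructor
    · rintro ⟨i, rfl⟩
      exact (E.symm i).2
    · intro hx
      exact ⟨E ⟨x, hx⟩, by show ((E.symm (E ⟨x, hx⟩) : b) : G → K) = x; rw [Equiv.symm_apply_apply]⟩
  have hmem : φ ∈ Submodule.span K (Set.range e) := by
    rw [hrange, hbspan, htop]
    exact Submodule.mem_top
  obtain ⟨a, ha⟩ := (Submodule.mem_span_range_iff_exists_fun K).1 hmem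
  have hafix : ∀ i, ∀ τ ∈ I, τ • a i = a i := fun i τ hτ =>
    hFIX K Γ G τ _ e a heli (fun j => hR.eqv (e j) (heR j) τ hτ) (by rw [ha]; exact hφ τ hτ) i
  choose m hm using fun i => AbsP3_mul_mem hA (a i) (hafix i)
  refine ⟨Finset.univ.sup m, ?_⟩
  rw [← ha, Finset.smul_sum]
  refine Subring.sum_mem _ fun i _ => ?_
  have h1 : π ^ (Finset.univ.sup m) • a i • e i
      = (fun _ => π ^ (Finset.univ.sup m) * a i : G → K) * e i := by
    funext x
    simp [mul_assoc]
  rw [h1]
  exact R.mul_mem (hR.const _ (hm i _ (Finset.le_sup (Finset.mem_univ i)))) (heR i)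

end Fermat.Agent.FF19.D

end

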