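/-
TEAM FF19 -> S19, block D [DESC], abstract core.  (P4) density: `K^{⟨I,s⟩} = K^Γ + π^m O`.
-/
import Fermat.Agent.FF19.D.AbsDefs

set_option autoImplicit false

noncomputable section

namespace Fermat.Agent.FF19.D

/-- the case `x ∈ O`, with `o` fixed by `s`. -/
theorem AbsP4_int {K Γ : Type} [Field K] [Group Γ] [MulSemiringAction Γ K]
    {I : Subgroup Γ} {s : Γ} {O : Subring K} {π : K} (h : AbsHyp I s O π)
    (x : K) (hx : x ∈ O) (hs : s • x = x) (m : ℕ) :
    ∃ q o : K, (∀ σ : Γ, σ • q = q) ∧ o ∈ O ∧ s • o = o ∧ x = q + π ^ m * o := by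
  induction m with
  | zero => exact ⟨0, x, fun σ => smul_zero σ, hx, hs, by simp⟩
  | succ m ih =>
    obtain ⟨q, o, hq, ho, hso, hxq⟩ := ih
    obtain ⟨a, _, hafix, hoa⟩ := h.res o ho hso
    refine ⟨q + π ^ m * a, (o - a) / π, ?_, hoa, ?_, ?_⟩
    · intro σ
      rw [smul_add, smul_mul', smul_pow', hq σ, h.πfix σ, hafix σ]
    · rw [div_eq_mul_inv, smul_mul', smul_inv'', smul_sub, hso, hafix s, h.πfix s]
    · rw [hxq]
      have := h.π0
      field_simp
      ring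

/-- (P4). -/
theorem stmt_P4 : Stmt_P4 := by
  intro K Γ _ _ _ I s O π h x hxI hxs m
  by_cases hx0 : x = 0
  · exact ⟨0, 0, fun σ => smul_zero σ, O.zero_mem, by simp [hx0]⟩
  obtain ⟨k, hk, _⟩ := h.unr x hx0 hxI
  set n : ℕ := k.toNat with hn
  have hπ0 := h.π0
  have hy : x * π ^ n ∈ O := by
    have h1 : ((n : ℤ) - k).toNat = (n : ℤ) - k := by
      apply Int.toNat_of_nonneg
      have := Int.self_le_toNat k
      omega
    have h2 : x * π ^ n = (x * π ^ k) * π ^ ((n : ℤ) - k).toNat := by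
      rw [← zpow_natCast π ((n : ℤ) - k).toNat, h1, mul_assoc, ← zpow_add₀ hπ0, ← zpow_natCast]
      congr 2
      ring
    rw [h2]
    exact O.mul_mem hk (O.pow_mem h.πO _)
  have hys : s • (x * π ^ n) = x * π ^ n := by
    rw [smul_mul', smul_pow', hxs, h.πfix s]
  obtain ⟨q, o, hq, ho, _, hxq⟩ := AbsP4_int h _ hy hys (m + n)
  refine ⟨q * (π ^ n)⁻¹, o, ?_, ho, ?_⟩
  · intro σ
    rw [smul_mul', smul_inv'', smul_pow', hq σ, h.πfix σ]
  · have h3 : x = (x * π ^ n) * (π ^ n)⁻¹ := by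
      field_simp
    rw [h3, hxq, pow_add]
    field_simp

end Fermat.Agent.FF19.D

end
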