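/-
TEAM FF19 -> S19, block D [DESC], ABSTRACT CORE.  (P5a) approximation mod `π` by `Γ`-equivariant functions.
-/
import Fermat.Agent.FF19.D.AbsDefs

set_option autoImplicit false

noncomputable section

namespace Fermat.Agent.FF19.D

/-- a spanning set of a finite dimensional space contains a finite basis, indexed by `Fin n`. -/
theorem AbsP5a_basis {K V : Type} [Field K] [AddCommGroup V] [Module K V] [FiniteDimensional K V]
    (S : Set V) (hS : Submodule.span K S = ⊤) :
    ∃ (n : ℕ) (e : Fin n → V), (∀ i, e i ∈ S) ∧ LinearIndependent K e ∧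
      Submodule.span K (Set.range e) = ⊤ := by
  obtain ⟨b, hbS, hspan, hli⟩ := exists_linearIndependent K S
  have hfin : Finite b := hli.finite
  obtain ⟨n, ⟨f⟩⟩ := Finite.exists_equiv_fin b
  refine ⟨n, fun i => (f.symm i).1, fun i => hbS (f.symm i).2, hli.comp _ f.symm.injective, ?_⟩
  have hr : Set.range (fun i => (f.symm i).1) = b := by
    ext x
    constructor
    · rintro ⟨i, rfl⟩
      exact (f.symm i).2
    · intro hx
      exact ⟨f ⟨x, hx⟩, by simp⟩
  rw [hr, hspan, hS]

/-- an order is stable under multiplication by `O`. -/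
theorem AbsP5a_smul_mem {K Γ G : Type} [Field K] [Group Γ] [MulSemiringAction Γ K]
    [AddCommGroup G] [DistribMulAction Γ G] {I : Subgroup Γ} {O : Subring K}
    {R : Subring (G → K)} (hR : IsLocOrd I O R) {c : K} (hc : c ∈ O) {ψ : G → K} (hψ : ψ ∈ R) :
    c • ψ ∈ R := by
  have : c • ψ = (fun _ => c : G → K) * ψ := by funext x; simp
  rw [this]
  exact R.mul_mem (hR.const _ hc) hψ

/-- a combination of equivariant functions with fixed coefficients is equivariant. -/
theorem AbsP5a_eqv_sum {K Γ X : Type} [Field K] [Group Γ] [MulSemiringAction Γ K] [MulAction Γ X]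
    (σ : Γ) {n : ℕ} (e : Fin n → X → K) (q : Fin n → K) (he : ∀ i, Eqv σ (e i))
    (hq : ∀ i, σ • q i = q i) : Eqv σ (∑ i, q i • e i) := by
  intro x
  simp only [Finset.sum_apply, Pi.smul_apply, smul_eq_mul, Finset.smul_sum, smul_mul']
  refine Finset.sum_congr rfl fun i _ => ?_
  rw [he i x, hq i]

/-- **(P5a)** -/
theorem stmt_P5a (hFIX : Stmt_FIX) (hP3 : Stmt_P3) (hP4 : Stmt_P4) : Stmt_P5a := by
  intro K Γ G _ _ _ _ _ _ I s O π R hA hGal hR φ hφ hs
  obtain ⟨n, e, he, hli, hspan⟩ := AbsP5a_basis {φ : G → K | ∀ σ : Γ, Eqv σ φ} hGal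
  have hφspan : φ ∈ Submodule.span K (Set.range e) := by rw [hspan]; trivial
  obtain ⟨c, hc⟩ := (Submodule.mem_span_range_iff_exists_fun K).1 hφspan
  -- denominators
  choose d hd using fun i => hP3 K Γ G I s O π R hA hR (e i) (fun τ _ => he i τ)
  obtain ⟨C, hC⟩ : ∃ C : ℕ, ∀ i, d i ≤ C :=
    ⟨∑ i, d i, fun i => Finset.single_le_sum (fun _ _ => Nat.zero_le _) (Finset.mem_univ i)⟩
  have hπpow : ∀ m : ℕ, π ^ m ∈ O := fun m => O.pow_mem hA.πO m
  have hCe : ∀ i, π ^ C • e i ∈ R := by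
    intro i
    have : π ^ C • e i = π ^ (C - d i) • (π ^ d i • e i) := by
      rw [smul_smul, ← pow_add, Nat.sub_add_cancel (hC i)]
    rw [this]
    exact AbsP5a_smul_mem hR (hπpow _) (hd i)
  -- the coefficients are fixed by `I` and `s`
  have hcI : ∀ i, ∀ τ ∈ I, τ • c i = c i := by
    intro i τ hτ
    refine hFIX K Γ G τ n e c hli (fun i => he i τ) ?_ i
    rw [hc]
    exact hR.eqv φ hφ τ hτ
  have hcs : ∀ i, s • c i = c i := by
    intro i
    refine hFIX K Γ G s n e c hli (fun i => he i s) ?_ i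
    rw [hc]
    exact hs
  choose q o hq ho hqo using fun i => hP4 K Γ I s O π hA (c i) (hcI i) (hcs i) (C + 1)
  have hψ : ∑ i, o i • (π ^ C • e i) ∈ R :=
    Subring.sum_mem _ fun i _ => AbsP5a_smul_mem hR (ho i) (hCe i)
  have hdec : φ = ∑ i, q i • e i + π • ∑ i, o i • (π ^ C • e i) := by
    rw [← hc, Finset.smul_sum, ← Finset.sum_add_distrib]
    refine Finset.sum_congr rfl fun i _ => ?_
    conv_lhs => rw [hqo i]
    rw [add_smul, smul_smul, smul_smul]
    congr 2
    ring
  refine ⟨∑ i, q i • e i, ∑ i, o i • (π ^ C • e i), ?_, ?_, hψ, hdec⟩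
  · have : ∑ i, q i • e i = φ - π • ∑ i, o i • (π ^ C • e i) := by
      rw [hdec]; abel
    rw [this]
    exact R.sub_mem hφ (AbsP5a_smul_mem hR hA.πO hψ)
  · intro σ
    exact AbsP5a_eqv_sum σ e q (fun i => he i σ) (fun i => hq i σ)

end Fermat.Agent.FF19.D

end
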