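/-
TEAM FF19 -> S19, block D [DESC], abstract core, package FFD-A8 (helper2, shadow):
(P5b) Nakayama + minimal generating family.
-/
import Fermat.Agent.FF19.D.AbsDefs

set_option autoImplicit false

noncomputable section

namespace Fermat.Agent.FF19.D

section

variable {K Γ : Type} [Field K] [Group Γ] [MulSemiringAction Γ K]
  {I : Subgroup Γ} {s : Γ} {O : Subring K} {π : K}

theorem AbsP5b_dich (hA : AbsHyp I s O π) (x : K) (hx : x ∈ O) (hx0 : x ≠ 0) :
    x⁻¹ ∈ O ∨ x / π ∈ O := by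
  obtain ⟨k, h1, h2⟩ := hA.unr x hx0 (hA.fixI x hx)
  rcases le_or_gt 0 k with hk | hk
  · left
    lift k to ℕ using hk
    have e : x⁻¹ = (x * π ^ (k : ℤ))⁻¹ * π ^ k := by
      rw [zpow_natCast, mul_inv, mul_assoc, inv_mul_cancel₀ (pow_ne_zero _ hA.π0), mul_one]
    rw [e]
    exact O.mul_mem h2 (O.pow_mem hA.πO k)
  · right
    obtain ⟨m, rfl⟩ : ∃ m : ℕ, k = -((m : ℤ) + 1) := ⟨(-k - 1).toNat, by omega⟩
    have e : x / π = (x * π ^ (-((m : ℤ) + 1))) * π ^ m := by
      have h0 := hA.π0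
      rw [zpow_neg, zpow_add_one₀ hA.π0, zpow_natCast]
      field_simp
    rw [e]
    exact O.mul_mem h1 (O.pow_mem hA.πO m)

theorem AbsP5b_div (hA : AbsHyp I s O π) (x y : K) (kx ky : ℤ) (hx : x * π ^ kx ∈ O)
    (hy : (y * π ^ ky)⁻¹ ∈ O) (hk : kx ≤ ky) : x / y ∈ O := by
  obtain ⟨m, rfl⟩ : ∃ m : ℕ, ky = kx + m := ⟨(ky - kx).toNat, by omega⟩
  have e : x / y = (x * π ^ kx) * (y * π ^ (kx + (m : ℤ)))⁻¹ * π ^ m := by
    have h0 := hA.π0
    have h1 : π ^ kx ≠ 0 := zpow_ne_zero _ h0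
    rw [zpow_add₀ h0, zpow_natCast]
    rcases eq_or_ne y 0 with rfl | hy0
    · simp
    · field_simp
  rw [e]
  exact O.mul_mem (O.mul_mem hx hy) (O.pow_mem hA.πO m)

theorem AbsP5b_unit (hA : AbsHyp I s O π) (z : K) (hz : z ∈ O) : (π * z + 1)⁻¹ ∈ O := by
  have hw : π * z + 1 ∈ O := O.add_mem (O.mul_mem hA.πO hz) O.one_mem
  have hw0 : π * z + 1 ≠ 0 := by
    intro h
    apply hA.πnu
    have e : π⁻¹ = -z := by
      have h0 := hA.π0
      field_simp
      linear_combination h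
    rw [e]
    exact O.neg_mem hz
  rcases AbsP5b_dich hA _ hw hw0 with h | h
  · exact h
  · exfalso
    apply hA.πnu
    have e : π⁻¹ = (π * z + 1) / π - z := by
      have h0 := hA.π0
      field_simp
      ring
    rw [e]
    exact O.sub_mem h hz

end

/-- (P5b) -/
theorem stmt_P5b (hIND : Stmt_IND) : Stmt_P5b := by
  intro K Γ G _ _ _ _ _ _ I s O π R hA hR hH
  classical
  let M : Submodule O (G → K) :=
    { carrier := R
      add_mem' := R.add_mem
      zero_mem' := R.zero_mem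
      smul_mem' := fun c φ hφ => by
        have e : c • φ = (fun _ => (c : K) : G → K) * φ := by
          funext x
          simp [Subring.smul_def]
        rw [e]
        exact R.mul_mem (hR.const _ c.2) hφ }
  have hM : ∀ φ, φ ∈ M ↔ φ ∈ R := fun φ => Iff.rfl
  let Hs : Set (G → K) := {h | h ∈ R ∧ ∀ σ : Γ, Eqv σ h}
  let J : Ideal O := Ideal.span {(⟨π, hA.πO⟩ : O)}
  have hJ : J ≤ Ideal.jacobson ⊥ := by
    rw [Ideal.span_le]
    intro x hx
    rw [Set.mem_singleton_iff] at hx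
    subst hx
    rw [SetLike.mem_coe, Ideal.mem_jacobson_bot]
    intro y
    rw [isUnit_iff_exists_inv]
    refine ⟨⟨_, AbsP5b_unit hA y.1 y.2⟩, ?_⟩
    apply Subtype.ext
    show (π * (y : K) + 1) * (π * (y : K) + 1)⁻¹ = 1
    refine mul_inv_cancel₀ ?_
    intro h
    have := AbsP5b_unit hA y.1 y.2
    apply hA.πnu
    have e : π⁻¹ = -(y : K) := by
      have h0 := hA.π0
      field_simp
      linear_combination h
    rw [e]
    exact O.neg_mem y.2
  have hMfg : M.FG := by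
    obtain ⟨n, b, hb, hgen⟩ := hR.fg
    refine ⟨Finset.univ.image b, le_antisymm ?_ ?_⟩
    · rw [Submodule.span_le]
      intro φ hφ
      simp only [Finset.coe_image, Finset.coe_univ, Set.image_univ, Set.mem_range] at hφ
      obtain ⟨i, rfl⟩ := hφ
      exact hb i
    · intro φ hφ
      obtain ⟨c, hc, rfl⟩ := hgen φ hφ
      refine Submodule.sum_mem _ fun i _ => ?_
      have e : c i • b i = (⟨c i, hc i⟩ : O) • b i := rfl
      rw [e]
      refine Submodule.smul_mem _ _ (Submodule.subset_span ?_)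
      simp
  have hle : M ≤ Submodule.span O Hs ⊔ J • M := by
    intro φ hφ
    obtain ⟨n, c, h, ψ, hc, hh, hhe, hψ, rfl⟩ := hH φ hφ
    refine Submodule.add_mem_sup ?_ ?_
    · refine Submodule.sum_mem _ fun i _ => ?_
      have e : c i • h i = (⟨c i, hc i⟩ : O) • h i := rfl
      rw [e]
      exact Submodule.smul_mem _ _ (Submodule.subset_span ⟨hh i, hhe i⟩)
    · have e : π • ψ = (⟨π, hA.πO⟩ : O) • ψ := rfl
      rw [e]
      exact Submodule.smul_mem_smul (Ideal.subset_span rfl) hψ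
  have hMN : M ≤ Submodule.span O Hs := Submodule.le_of_le_smul_of_le_jacobson_bot hMfg hJ hle
  have hNM : Submodule.span O Hs ≤ M := Submodule.span_le.2 fun h hh => hh.1
  have hNfg : (Submodule.span O Hs).FG := by
    rw [le_antisymm hNM hMN]
    exact hMfg
  obtain ⟨S, hS1, hS2⟩ := (Submodule.fg_span_iff_fg_span_finset_subset Hs).1 hNfg
  let P : ℕ → Prop := fun n => ∃ e : Fin n → G → K, (∀ i, e i ∈ R) ∧ (∀ i (σ : Γ), Eqv σ (e i)) ∧
    ∀ φ ∈ R, ∃ c : Fin n → K, (∀ i, c i ∈ O) ∧ φ = ∑ i, c i • e i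
  have hex : ∃ n, P n := by
    refine ⟨S.card, fun i => (S.equivFin.symm i : G → K), fun i => (hS1 (S.equivFin.symm i).2).1,
      fun i => (hS1 (S.equivFin.symm i).2).2, fun φ hφ => ?_⟩
    have hr : Set.range (fun i => (S.equivFin.symm i : G → K)) = (S : Set (G → K)) := by
      ext x
      constructor
      · rintro ⟨i, rfl⟩
        exact (S.equivFin.symm i).2
      · intro hx
        exact ⟨S.equivFin ⟨x, hx⟩, by simp⟩
    have h1 : φ ∈ Submodule.span O (Set.range (fun i => (S.equivFin.symm i : G → K))) := by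
      rw [hr, ← hS2]
      exact hMN hφ
    rw [Submodule.mem_span_range_iff_exists_fun] at h1
    obtain ⟨c, hc⟩ := h1
    exact ⟨fun i => (c i : K), fun i => (c i).2, hc.symm⟩
  obtain ⟨n, ⟨e, heR, heq, hgen⟩, hmin⟩ : ∃ n, P n ∧ ∀ m < n, ¬ P m :=
    ⟨Nat.find hex, Nat.find_spec hex, fun m hm => Nat.find_min hex hm⟩
  refine ⟨n, e, heR, heq, hIND K Γ G n e heq ?_, hgen⟩
  intro q hq hsum
  by_contra hne
  push Not at hne
  obtain ⟨i1, hi1⟩ := hne
  have hk : ∀ i, ∃ k : ℤ, q i ≠ 0 → (q i * π ^ k ∈ O ∧ (q i * π ^ k)⁻¹ ∈ O) := by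
    intro i
    by_cases h0 : q i = 0
    · exact ⟨0, fun h => absurd h0 h⟩
    · obtain ⟨k, hk⟩ := hA.unr (q i) h0 (fun τ _ => hq i τ)
      exact ⟨k, fun _ => hk⟩
  choose k hk using hk
  obtain ⟨i0, hi0, hmax⟩ := (Finset.univ.filter fun i => q i ≠ 0).exists_max_image k
    ⟨i1, by simp [hi1]⟩
  have hq0 : q i0 ≠ 0 := (Finset.mem_filter.1 hi0).2
  have hdiv : ∀ i, q i / q i0 ∈ O := by
    intro i
    by_cases h0 : q i = 0
    · rw [h0, zero_div]
      exact O.zero_mem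
    · exact AbsP5b_div hA _ _ (k i) (k i0) (hk i h0).1 (hk i0 hq0).2
        (hmax i (Finset.mem_filter.2 ⟨Finset.mem_univ _, h0⟩))
  rcases n with _ | n'
  · exact i0.elim0
  refine hmin n' (Nat.lt_succ_self n') ⟨fun j => e (i0.succAbove j), fun j => heR _,
    fun j => heq _, fun φ hφ => ?_⟩
  have h0 : q i0 • e i0 + ∑ j, q (i0.succAbove j) • e (i0.succAbove j) = 0 := by
    rw [← Fin.sum_univ_succAbove (fun i => q i • e i) i0]
    exact hsum
  have h1 : e i0 = ∑ j, (-(q (i0.succAbove j) / q i0)) • e (i0.succAbove j) := by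
    have e1 : e i0 = (q i0)⁻¹ • (q i0 • e i0) := by
      rw [smul_smul, inv_mul_cancel₀ hq0, one_smul]
    rw [e1, eq_neg_of_add_eq_zero_left h0, smul_neg, Finset.smul_sum, ← Finset.sum_neg_distrib]
    refine Finset.sum_congr rfl fun j _ => ?_
    rw [smul_smul, neg_smul, div_eq_inv_mul]
  obtain ⟨c, hc, hφc⟩ := hgen φ hφ
  refine ⟨fun j => c i0 * (-(q (i0.succAbove j) / q i0)) + c (i0.succAbove j), fun j =>
    O.add_mem (O.mul_mem (hc _) (O.neg_mem (hdiv _))) (hc _), ?_⟩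
  rw [hφc, Fin.sum_univ_succAbove (fun i => c i • e i) i0]
  conv_lhs => rw [h1]
  rw [Finset.smul_sum, ← Finset.sum_add_distrib]
  refine Finset.sum_congr rfl fun j _ => ?_
  rw [smul_smul, ← add_smul]

end Fermat.Agent.FF19.D

end
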