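/-
TEAM FF19 -> S19, block D [DESC], abstract core, package FFD-A9 (helper2):
(P5c) the structure constants are `Γ`-fixed.
-/
import Fermat.Agent.FF19.D.AbsDefs

set_option autoImplicit false

noncomputable section

namespace Fermat.Agent.FF19.D

/-- (P5c) -/
theorem stmt_P5c (hSW : Stmt_SW) (hFIX : Stmt_FIX) : Stmt_P5c := by
  intro K Γ G _ _ _ _ _ _ I O R hR n e heR heq hli hgen
  have hfix : ∀ (c : Fin n → K) (φ : G → K), φ = ∑ i, c i • e i → (∀ σ : Γ, Eqv σ φ) →
      ∀ i (σ : Γ), σ • c i = c i := by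
    intro c φ hφ hE i σ
    exact hFIX K Γ G σ n e c hli (fun i => heq i σ) (hφ ▸ hE σ) i
  refine ⟨heq, hli, ?_, ?_, ?_, ?_⟩
  · rw [eq_top_iff, ← hSW K G R hR.sep, Submodule.span_le]
    intro φ hφ
    obtain ⟨c, -, rfl⟩ := hgen φ hφ
    exact Submodule.sum_mem _ fun i _ => Submodule.smul_mem _ _ (Submodule.subset_span ⟨i, rfl⟩)
  · obtain ⟨c, hc, h1⟩ := hgen 1 R.one_mem
    exact ⟨c, fun i => ⟨hc i, fun σ => hfix c 1 h1 (fun σ x => by simp) i σ⟩, h1⟩
  · intro i j
    obtain ⟨c, hc, h1⟩ := hgen (e i * e j) (R.mul_mem (heR i) (heR j))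
    refine ⟨c, fun k => ⟨hc k, fun σ => hfix c _ h1 (fun σ x => ?_) k σ⟩, h1⟩
    simp only [Pi.mul_apply]
    rw [heq i σ x, heq j σ x, smul_mul']
  · intro i
    obtain ⟨m, a, b, ha, hb, hab⟩ := hR.comul (e i) (heR i)
    choose α hα hα' using fun t => hgen (a t) (ha t)
    choose β hβ hβ' using fun t => hgen (b t) (hb t)
    let c : Fin n → Fin n → K := fun j k => ∑ t, α t j * β t k
    have hcO : ∀ j k, c j k ∈ O := fun j k => O.sum_mem fun t _ => O.mul_mem (hα t j) (hβ t k)
    have hexp : ∀ x y, e i (x + y) = ∑ j, ∑ k, c j k * (e j x * e k y) := by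
      intro x y
      rw [hab]
      have h1 : ∀ t, a t x * b t y = ∑ j, ∑ k, (α t j * β t k) * (e j x * e k y) := by
        intro t
        rw [hα' t, hβ' t]
        simp only [Finset.sum_apply, Pi.smul_apply, smul_eq_mul]
        rw [Finset.sum_mul_sum]
        exact Finset.sum_congr rfl fun j _ => Finset.sum_congr rfl fun k _ => by ring
      simp only [h1]
      rw [Finset.sum_comm]
      refine Finset.sum_congr rfl fun j _ => ?_
      rw [Finset.sum_comm]
      refine Finset.sum_congr rfl fun k _ => ?_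
      rw [← Finset.sum_mul]
    refine ⟨c, fun j k => ⟨hcO j k, fun σ => ?_⟩, hexp⟩
    have hz : ∀ x y, ∑ j, ∑ k, (σ • c j k - c j k) * (e j x * e k y) = 0 := by
      intro x' y'
      obtain ⟨x, rfl⟩ := MulAction.surjective σ x'
      obtain ⟨y, rfl⟩ := MulAction.surjective σ y'
      have h1 := hexp (σ • x) (σ • y)
      have h2 : e i (σ • x + σ • y) = σ • e i (x + y) := by rw [← smul_add, heq i σ]
      have h3 : σ • e i (x + y)
          = ∑ j, ∑ k, σ • c j k * (e j (σ • x) * e k (σ • y)) := by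
        rw [hexp x y, Finset.smul_sum]
        refine Finset.sum_congr rfl fun j _ => ?_
        rw [Finset.smul_sum]
        refine Finset.sum_congr rfl fun k _ => ?_
        rw [smul_mul', smul_mul', heq j σ x, heq k σ y]
      simp only [sub_mul, Finset.sum_sub_distrib]
      rw [← h3, ← h1, h2, sub_self]
    have h3 : ∀ y j, ∑ k, (σ • c j k - c j k) * e k y = 0 := by
      intro y
      have h4 : ∑ j, (∑ k, (σ • c j k - c j k) * e k y) • e j = 0 := by
        funext x
        simp only [Finset.sum_apply, Pi.smul_apply, smul_eq_mul, Pi.zero_apply]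
        rw [← hz x y]
        refine Finset.sum_congr rfl fun j _ => ?_
        rw [Finset.sum_mul]
        exact Finset.sum_congr rfl fun k _ => by ring
      exact fun j => (Fintype.linearIndependent_iff.1 hli) _ h4 j
    have h5 : ∑ k, (σ • c j k - c j k) • e k = 0 := by
      funext y
      simp only [Finset.sum_apply, Pi.smul_apply, smul_eq_mul, Pi.zero_apply]
      exact h3 y j
    exact sub_eq_zero.1 ((Fintype.linearIndependent_iff.1 hli) _ h5 k)

end Fermat.Agent.FF19.D

end
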