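/-
TEAM FF19 -> S19, block D [DESC], CONCRETE LAYER (helper87, deputy of helper56).

`K = ℚ̄`, `Γ = G_ℚ`, `I = A.inertiaSubgroupIn ℚ`, `s` a Frobenius element at `A`, `O = OI A = A ∩ ℚ̄^I`, `π = l`:
the abstract hypotheses `AbsHyp` of `D/AbsDefs.lean` hold (`conc_hyp`).
-/
import Fermat.Agent.FF19.D.AbsDefs
import Fermat.Agent.S36.Base.Mu
import Fermat.Agent.S36.Base.Unram
import Fermat.Prelude.Def_EllipticCurve_FrobeniusTrace
import Fermat.Prelude.Def_GaloisRep_Flat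

set_option autoImplicit false

noncomputable section

namespace Fermat.Agent.FF19.D

open scoped Pointwise

/-- `ℚ̄` -/
abbrev Qb : Type := AlgebraicClosure ℚ
/-- `G_ℚ` -/
abbrev GQ : Type := AlgebraicClosure ℚ ≃ₐ[ℚ] AlgebraicClosure ℚ

/-- `O = A ∩ ℚ̄^I`. -/
def OI (A : ValuationSubring Qb) : Subring Qb where
  carrier := {x | x ∈ A ∧ ∀ σ ∈ A.inertiaSubgroupIn ℚ, σ x = x}
  mul_mem' := fun {a b} ha hb => ⟨A.mul_mem _ _ ha.1 hb.1, fun σ hσ => by
    rw [map_mul, ha.2 σ hσ, hb.2 σ hσ]⟩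
  one_mem' := ⟨A.one_mem, fun σ _ => map_one σ⟩
  add_mem' := fun {a b} ha hb => ⟨A.add_mem _ _ ha.1 hb.1, fun σ hσ => by
    rw [map_add, ha.2 σ hσ, hb.2 σ hσ]⟩
  zero_mem' := ⟨A.zero_mem, fun σ _ => map_zero σ⟩
  neg_mem' := fun {a} ha => ⟨A.neg_mem _ ha.1, fun σ hσ => by rw [map_neg, ha.2 σ hσ]⟩

theorem mem_OI {A : ValuationSubring Qb} {x : Qb} :
    x ∈ OI A ↔ x ∈ A ∧ ∀ σ ∈ A.inertiaSubgroupIn ℚ, σ x = x := Iff.rfl

variable {A : ValuationSubring Qb} {l : ℕ} {s : GQ}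

/-- an element of the decomposition group preserves `A`. -/
theorem Conc_dec_mem {σ : GQ} (hσ : σ ∈ A.decompositionSubgroup ℚ) {x : Qb} (hx : x ∈ A) :
    σ x ∈ A := by
  have h1 : σ • A = A := hσ
  have h2 : σ • x ∈ σ • A := ValuationSubring.smul_mem_pointwise_smul σ x A hx
  rw [h1] at h2
  exact h2

theorem Conc_dec_mem_iff {σ : GQ} (hσ : σ ∈ A.decompositionSubgroup ℚ) {x : Qb} :
    σ x ∈ A ↔ x ∈ A := by
  refine ⟨fun h => ?_, Conc_dec_mem hσ⟩
  have := Conc_dec_mem ((A.decompositionSubgroup ℚ).inv_mem hσ) h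
  simpa using this

/-- membership in the inertia group, elementary form. -/
theorem Conc_mem_inertia_iff {τ : GQ} :
    τ ∈ A.inertiaSubgroupIn ℚ ↔
      τ ∈ A.decompositionSubgroup ℚ ∧ ∀ a ∈ A, τ a - a ∈ A.nonunits := by
  constructor
  · intro h
    refine ⟨?_, S36.Base.Mu_sub_mem_nonunits h⟩
    obtain ⟨g, -, rfl⟩ := h
    exact g.2
  · rintro ⟨h1, h2⟩
    refine ⟨⟨τ, h1⟩, ?_, rfl⟩
    rw [SetLike.mem_coe, ValuationSubring.inertiaSubgroup, MonoidHom.mem_ker]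
    ext x
    obtain ⟨a, rfl⟩ := IsLocalRing.residue_surjective x
    have h3 := h2 a a.2
    show (⟨τ, h1⟩ : A.decompositionSubgroup ℚ) • (IsLocalRing.residue A a) = IsLocalRing.residue A a
    rw [← IsLocalRing.ResidueField.residue_smul, ← sub_eq_zero, ← map_sub,
      IsLocalRing.residue_eq_zero_iff, ← ValuationSubring.coe_mem_nonunits_iff]
    exact h3

theorem Conc_nonunits_dec {σ : GQ} (hσ : σ ∈ A.decompositionSubgroup ℚ) {x : Qb}
    (hx : x ∈ A.nonunits) : σ x ∈ A.nonunits := by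
  by_cases h0 : x = 0
  · rw [h0, map_zero]; rw [h0] at hx; exact hx
  rw [ValuationSubring.mem_nonunits_iff_exists_mem_maximalIdeal] at hx ⊢
  obtain ⟨hxA, hxm⟩ := hx
  refine ⟨Conc_dec_mem hσ hxA, ?_⟩
  rw [IsLocalRing.mem_maximalIdeal, mem_nonunits_iff] at hxm ⊢
  intro hu
  apply hxm
  obtain ⟨u, hu⟩ := hu
  have h1 : σ x * ((u⁻¹ : Aˣ) : A) = 1 := by
    have := congrArg (Subtype.val) (Units.mul_inv u)
    rw [hu] at this
    exact this
  have h2 : x * σ⁻¹ (((u⁻¹ : Aˣ) : A) : Qb) = 1 := by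
    have := congrArg (σ⁻¹ : GQ) h1
    rw [map_mul, map_one] at this
    simpa using this
  refine IsUnit.of_mul_eq_one
    (⟨σ⁻¹ (((u⁻¹ : Aˣ) : A) : Qb), Conc_dec_mem ((A.decompositionSubgroup ℚ).inv_mem hσ)
      ((u⁻¹ : Aˣ) : A).2⟩ : A) ?_
  exact Subtype.ext h2

/-- the decomposition group normalises the inertia group. -/
theorem Conc_norm {σ τ : GQ} (hσ : σ ∈ A.decompositionSubgroup ℚ)
    (hτ : τ ∈ A.inertiaSubgroupIn ℚ) : σ⁻¹ * τ * σ ∈ A.inertiaSubgroupIn ℚ := by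
  rw [Conc_mem_inertia_iff] at hτ ⊢
  have hσ' := (A.decompositionSubgroup ℚ).inv_mem hσ
  refine ⟨(A.decompositionSubgroup ℚ).mul_mem ((A.decompositionSubgroup ℚ).mul_mem hσ' hτ.1) hσ, ?_⟩
  intro a ha
  have h1 := hτ.2 (σ a) (Conc_dec_mem hσ ha)
  have h2 := Conc_nonunits_dec hσ' h1
  have e : (σ⁻¹ * τ * σ) a - a = σ⁻¹ (τ (σ a) - σ a) := by
    rw [map_sub]
    simp [AlgEquiv.mul_apply]
  rw [e]
  exact h2

theorem Conc_norm' {σ τ : GQ} (hσ : σ ∈ A.decompositionSubgroup ℚ)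
    (hτ : τ ∈ A.inertiaSubgroupIn ℚ) : σ * τ * σ⁻¹ ∈ A.inertiaSubgroupIn ℚ := by
  have := Conc_norm ((A.decompositionSubgroup ℚ).inv_mem hσ) hτ
  simpa using this

/-- `σ O = O` for `σ` in the decomposition group. -/
theorem Conc_OI_dec {σ : GQ} (hσ : σ ∈ A.decompositionSubgroup ℚ) {x : Qb} (hx : x ∈ OI A) :
    σ x ∈ OI A := by
  refine ⟨Conc_dec_mem hσ hx.1, fun τ hτ => ?_⟩
  have h1 := hx.2 _ (Conc_norm hσ hτ)
  have h2 := congrArg σ h1
  simpa [AlgEquiv.mul_apply] using h2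

theorem Conc_OI_dec_iff {σ : GQ} (hσ : σ ∈ A.decompositionSubgroup ℚ) {x : Qb} :
    σ x ∈ OI A ↔ x ∈ OI A := by
  refine ⟨fun h => ?_, Conc_OI_dec hσ⟩
  have := Conc_OI_dec ((A.decompositionSubgroup ℚ).inv_mem hσ) h
  simpa using this

/-- the Frobenius congruence, elementary form. -/
theorem Conc_frob (hs : A.IsFrobeniusAt s l) : ∀ a ∈ A, s a - a ^ l ∈ A.nonunits := by
  intro a ha
  obtain ⟨h1, h2⟩ := hs
  have h3 := h2 (IsLocalRing.residue A ⟨a, ha⟩)
  rw [← IsLocalRing.ResidueField.residue_smul, ← map_pow, ← sub_eq_zero, ← map_sub,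
    IsLocalRing.residue_eq_zero_iff, ← ValuationSubring.coe_mem_nonunits_iff] at h3
  exact h3


/-! ### valuations -/

theorem Conc_l_ne_zero (hl : l.Prime) : (l : Qb) ≠ 0 := by
  exact_mod_cast hl.ne_zero

theorem Conc_l_inv_notMem (hl : l.Prime) (hA : A.LiesOverPrime l) : ((l : Qb))⁻¹ ∉ A :=
  ((ValuationSubring.mem_nonunits_iff_or A).1 hA).resolve_left (Conc_l_ne_zero hl)

theorem Conc_fix_l (σ : GQ) : σ (l : Qb) = (l : Qb) := map_natCast σ l

/-- [UNR], in `O`. -/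
theorem Conc_unr (hl : l.Prime) (hA : A.LiesOverPrime l) (x : Qb) (hx : x ≠ 0)
    (hfix : ∀ τ ∈ A.inertiaSubgroupIn ℚ, τ x = x) :
    ∃ k : ℤ, x * (l : Qb) ^ k ∈ OI A ∧ (x * (l : Qb) ^ k)⁻¹ ∈ OI A := by
  obtain ⟨k, h1, h2⟩ := S36.Base.stmt_Unram l A hl hA x hx hfix
  have h3 : ∀ τ ∈ A.inertiaSubgroupIn ℚ, τ (x * (l : Qb) ^ k) = x * (l : Qb) ^ k := by
    intro τ hτ
    rw [map_mul, map_zpow₀, Conc_fix_l, hfix τ hτ]
  exact ⟨k, ⟨h1, h3⟩, ⟨h2, fun τ hτ => by rw [map_inv₀, h3 τ hτ]⟩⟩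

/-- [UNR], second form: `𝔪_A ∩ ℚ̄^I = l O`. -/
theorem Conc_unr_div (hl : l.Prime) (hA : A.LiesOverPrime l) (y : Qb) (hy : y ∈ A.nonunits)
    (hfix : ∀ τ ∈ A.inertiaSubgroupIn ℚ, τ y = y) : y / (l : Qb) ∈ OI A := by
  have hfix' : ∀ τ ∈ A.inertiaSubgroupIn ℚ, τ (y / (l : Qb)) = y / (l : Qb) := by
    intro τ hτ
    rw [map_div₀, Conc_fix_l, hfix τ hτ]
  refine ⟨?_, hfix'⟩
  by_cases hy0 : y = 0
  · rw [hy0, zero_div]; exact A.zero_mem
  obtain ⟨k, h1, h2⟩ := S36.Base.stmt_Unram l A hl hA y hy0 hfix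
  have hl0 := Conc_l_ne_zero (l := l) hl
  have hvl : A.valuation (l : Qb) < 1 := (ValuationSubring.mem_nonunits_iff A).1 hA
  have hvl0 : A.valuation (l : Qb) ≠ 0 := (Valuation.ne_zero_iff _).2 hl0
  have hvy : A.valuation y < 1 := (ValuationSubring.mem_nonunits_iff A).1 hy
  have hu : A.valuation (y * (l : Qb) ^ k) = 1 := by
    have a1 := (A.valuation_le_one_iff _).2 h1
    have a2 := (A.valuation_le_one_iff _).2 h2
    rw [map_inv₀] at a2
    have hne : A.valuation (y * (l : Qb) ^ k) ≠ 0 :=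
      (Valuation.ne_zero_iff _).2 (mul_ne_zero hy0 (zpow_ne_zero _ hl0))
    refine le_antisymm a1 ?_
    exact (inv_le_one₀ (zero_lt_iff.2 hne)).1 a2
  rw [map_mul, map_zpow₀] at hu
  -- `k < 0`
  have hk : k < 0 := by
    by_contra hk
    push Not at hk
    have h3 : A.valuation (l : Qb) ^ k ≤ 1 := by
      obtain ⟨n, rfl⟩ := Int.eq_ofNat_of_zero_le hk
      rw [zpow_natCast]
      exact pow_le_one' hvl.le n
    have h4 : A.valuation y * A.valuation (l : Qb) ^ k < 1 :=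
      lt_of_le_of_lt (mul_le_of_le_one_right' h3) hvy
    rw [hu] at h4
    exact lt_irrefl _ h4
  rw [← A.valuation_le_one_iff, map_div₀]
  have h5 : A.valuation y = A.valuation (l : Qb) ^ (-k) := by
    rw [zpow_neg]
    exact eq_inv_of_mul_eq_one_left hu
  rw [h5]
  obtain ⟨n, hn⟩ : ∃ n : ℕ, -k = (n : ℤ) + 1 := ⟨(-k - 1).toNat, by omega⟩
  rw [hn, zpow_add_one₀ hvl0, zpow_natCast, mul_div_assoc, div_self hvl0, mul_one]
  exact pow_le_one' hvl.le n

/-! ### the residue field of `O^s` -/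

theorem Conc_res_int (hl : l.Prime) (hA : A.LiesOverPrime l) (x : Qb) (hx : x ∈ A)
    (h : x ^ l - x ∈ A.nonunits) : ∃ n : ℤ, x - (n : Qb) ∈ A.nonunits := by
  have : Fact l.Prime := ⟨hl⟩
  have hlk : ((l : ℕ) : IsLocalRing.ResidueField A) = 0 := by
    have h1 : ((l : ℕ) : A) ∈ IsLocalRing.maximalIdeal A := by
      rw [← ValuationSubring.coe_mem_nonunits_iff]
      push_cast
      exact hA
    have h2 := (IsLocalRing.residue_eq_zero_iff _).2 h1
    rwa [map_natCast] at h2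
  have : CharP (IsLocalRing.ResidueField A) l := (CharP.charP_iff_prime_eq_zero hl).mpr hlk
  have h1 : (IsLocalRing.residue A ⟨x, hx⟩) ^ l = IsLocalRing.residue A ⟨x, hx⟩ := by
    rw [← sub_eq_zero, ← map_pow, ← map_sub, IsLocalRing.residue_eq_zero_iff,
      ← ValuationSubring.coe_mem_nonunits_iff]
    exact h
  have h2 := (Subfield.mem_bot_iff_pow_eq_self (IsLocalRing.ResidueField A) l).2 h1
  obtain ⟨n, hn⟩ := (mem_bot_iff_intCast l (IsLocalRing.ResidueField A)).1 h2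
  refine ⟨n, ?_⟩
  have h3 : IsLocalRing.residue A (⟨x, hx⟩ - (n : A)) = 0 := by
    rw [map_sub, map_intCast, hn, sub_self]
  rw [IsLocalRing.residue_eq_zero_iff, ← ValuationSubring.coe_mem_nonunits_iff] at h3
  simpa using h3

theorem Conc_res (hl : l.Prime) (hA : A.LiesOverPrime l) (hs : A.IsFrobeniusAt s l) (x : Qb)
    (hx : x ∈ OI A) (hsx : s x = x) :
    ∃ a ∈ OI A, (∀ σ : GQ, σ a = a) ∧ (x - a) / (l : Qb) ∈ OI A := by
  have h1 := Conc_frob hs x hx.1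
  rw [hsx] at h1
  have h2 : x ^ l - x ∈ A.nonunits := by
    have := (ValuationSubring.mem_nonunits_iff A).1 h1
    rw [ValuationSubring.mem_nonunits_iff, ← neg_sub, Valuation.map_neg]
    exact this
  obtain ⟨n, hn⟩ := Conc_res_int hl hA x hx.1 h2
  refine ⟨(n : Qb), intCast_mem (OI A) n, fun σ => map_intCast σ n, ?_⟩
  refine Conc_unr_div hl hA _ hn fun τ hτ => ?_
  rw [map_sub, map_intCast, hx.2 τ hτ]

/-! ### finite orbits -/

theorem Conc_fin (σ : GQ) (y : Qb) : ∃ f : ℕ, 0 < f ∧ (σ ^ f) y = y := by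
  classical
  have hy : IsIntegral ℚ y := (AlgebraicClosure.isAlgebraic ℚ).isIntegral.isIntegral y
  set T : Set Qb := ((minpoly ℚ y).rootSet Qb) with hT
  have hfin : T.Finite := Polynomial.rootSet_finite _ _
  have hmem : ∀ n : ℕ, (σ ^ n) y ∈ T := by
    intro n
    rw [hT, Polynomial.mem_rootSet]
    refine ⟨minpoly.ne_zero hy, ?_⟩
    rw [Polynomial.aeval_algHom_apply (σ ^ n : GQ) y, minpoly.aeval, map_zero]
  have : Finite T := hfin
  obtain ⟨a, b, hab, he⟩ := Finite.exists_ne_map_eq_of_infinite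
    (fun n : ℕ => (⟨(σ ^ n) y, hmem n⟩ : T))
  have he' : (σ ^ a) y = (σ ^ b) y := congrArg Subtype.val he
  have key : ∀ a b : ℕ, a < b → (σ ^ a) y = (σ ^ b) y → ∃ f : ℕ, 0 < f ∧ (σ ^ f) y = y := by
    intro a b hab he
    refine ⟨b - a, by omega, ?_⟩
    have h1 : σ ^ b = σ ^ a * σ ^ (b - a) := by rw [← pow_add]; congr 1; omega
    rw [h1, AlgEquiv.mul_apply] at he
    exact ((σ ^ a).injective he).symm
  rcases lt_or_gt_of_ne hab with h | h
  · exact key a b h he'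
  · exact key b a h he'.symm

/-! ### [LAG] -/

/-- two `m`-th roots of unity (`l ∤ m`) which are congruent are equal. -/
theorem Conc_mu_eq (hl : l.Prime) (hA : A.LiesOverPrime l) {m : ℕ} (hm : ¬ l ∣ m) {y z : Qb}
    (hy : y ^ m = 1) (hz : z ^ m = 1) (hm0 : m ≠ 0) (h : y - z ∈ A.nonunits) : y = z := by
  have hz0 : z ≠ 0 := by
    intro h0
    rw [h0, zero_pow hm0] at hz
    exact zero_ne_one hz
  have hzi : z⁻¹ ∈ A := by
    apply S36.Base.Mu_mem_of_pow_mem hm0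
    rw [inv_pow, hz, inv_one]
    exact A.one_mem
  have h1 : y * z⁻¹ = 1 := by
    apply S36.Base.Mu_sep hl hA hm
    · rw [mul_pow, hy, inv_pow, hz, inv_one, one_mul]
    · have e : y * z⁻¹ - 1 = (y - z) * z⁻¹ := by rw [sub_mul, mul_inv_cancel₀ hz0]
      rw [e, ValuationSubring.mem_nonunits_iff, map_mul]
      have a1 := (ValuationSubring.mem_nonunits_iff A).1 h
      have a2 := (A.valuation_le_one_iff _).2 hzi
      exact lt_of_le_of_lt (mul_le_of_le_one_right' a2) a1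
  have h2 := congrArg (· * z) h1
  simpa [mul_assoc, inv_mul_cancel₀ hz0] using h2

theorem Conc_lag (hl : l.Prime) (hA : A.LiesOverPrime l) (hs : A.IsFrobeniusAt s l) (f : ℕ)
    (hf : 0 < f) : ∃ z ∈ OI A, (s ^ f) z = z ∧
      ∀ i : ℕ, 0 < i → i < f → z - (s ^ i) z ≠ 0 ∧ (z - (s ^ i) z)⁻¹ ∈ OI A := by
  have hl2 : 2 ≤ l := hl.two_le
  have hpow : ∀ i : ℕ, 1 ≤ l ^ i := fun i => Nat.one_le_pow _ _ hl.pos
  set m : ℕ := l ^ f - 1 with hm
  have hlf : 2 ≤ l ^ f := le_trans hl2 (Nat.le_self_pow hf.ne' l)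
  have hm0 : m ≠ 0 := by omega
  have hm1 : m + 1 = l ^ f := by omega
  have hlm : ¬ l ∣ m := by
    intro h
    have h1 : l ∣ l ^ f := dvd_pow_self l hf.ne'
    rw [← hm1] at h1
    have h2 : l ∣ 1 := (Nat.dvd_add_right h).1 h1
    exact hl.one_lt.ne' (Nat.dvd_one.1 h2)
  obtain ⟨-, ⟨ζ, hζ⟩, -⟩ := S36.Base.stmt_Mu l A hl hA m hm0 hlm
  set z : Qb := S36.Base.Mu_val A ζ with hz
  have hzp : IsPrimitiveRoot z m := hζ.map_of_injective S36.Base.Mu_val_injective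
  have hzA : z ∈ A := S36.Base.Mu_val_mem ζ
  have hzO : z ∈ OI A := ⟨hzA, fun σ hσ => S36.Base.Mu_val_fixed ζ hσ⟩
  have hzm : z ^ m = 1 := hzp.pow_eq_one
  have hz0 : z ≠ 0 := hzp.ne_zero hm0
  have hdec := hs.mem_decompositionSubgroup
  -- `s z = z ^ l`
  have hsz : s z = z ^ l := by
    apply Conc_mu_eq hl hA hlm _ _ hm0 (Conc_frob hs z hzA)
    · rw [← map_pow, hzm, map_one]
    · rw [← pow_mul, mul_comm, pow_mul, hzm, one_pow]
  have hsi : ∀ i : ℕ, (s ^ i) z = z ^ (l ^ i) := by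
    intro i
    induction i with
    | zero => simp
    | succ i ih =>
      rw [pow_succ', AlgEquiv.mul_apply, ih, map_pow, hsz, ← pow_mul, pow_succ']
  refine ⟨z, hzO, ?_, ?_⟩
  · rw [hsi, ← hm1, pow_succ, hzm, one_mul]
  · intro i hi hif
    have hiO : (s ^ i) z ∈ OI A :=
      Conc_OI_dec ((A.decompositionSubgroup ℚ).pow_mem hdec i) hzO
    have hdO : z - (s ^ i) z ∈ OI A := (OI A).sub_mem hzO hiO
    have hnu : z - (s ^ i) z ∉ A.nonunits := by
      intro h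
      rw [hsi] at h
      have h1 : z = z ^ (l ^ i) := by
        apply Conc_mu_eq hl hA hlm hzm _ hm0 h
        rw [← pow_mul, mul_comm, pow_mul, hzm, one_pow]
      have h2 : z ^ (l ^ i - 1) = 1 := by
        have h3 : z ^ (l ^ i) = z ^ (l ^ i - 1) * z := by
          rw [← pow_succ]; congr 1; have := hpow i; omega
        rw [h3] at h1
        have h4 : (1 : Qb) * z = z ^ (l ^ i - 1) * z := by rw [one_mul]; exact h1
        exact (mul_right_cancel₀ hz0 h4).symm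
      have h5 : m ∣ l ^ i - 1 := (hzp.pow_eq_one_iff_dvd _).1 h2
      have h6 : l ^ i < l ^ f := Nat.pow_lt_pow_right hl.one_lt hif
      have h7 : 2 ≤ l ^ i := le_trans hl2 (Nat.le_self_pow hi.ne' l)
      have h8 := Nat.le_of_dvd (by omega) h5
      omega
    have hne : z - (s ^ i) z ≠ 0 := by
      intro h0
      apply hnu
      rw [h0]
      exact (ValuationSubring.mem_nonunits_iff_or A).2 (Or.inl rfl)
    refine ⟨hne, ?_, fun τ hτ => by rw [map_inv₀, hdO.2 τ hτ]⟩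
    by_contra hcon
    exact hnu ((ValuationSubring.mem_nonunits_iff_or A).2 (Or.inr hcon))

/-! ### the abstract hypotheses -/

/-- **the concrete instance of `AbsHyp`.** -/
theorem conc_hyp (hl : l.Prime) (hA : A.LiesOverPrime l) (hs : A.IsFrobeniusAt s l) :
    AbsHyp (A.inertiaSubgroupIn ℚ) s (OI A) (l : Qb) where
  fixI := fun _ hx τ hτ => hx.2 τ hτ
  norm := fun _ hτ => Conc_norm hs.mem_decompositionSubgroup hτ
  sO := fun _ => Conc_OI_dec_iff hs.mem_decompositionSubgroup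
  πO := natCast_mem (OI A) l
  π0 := Conc_l_ne_zero hl
  πfix := fun σ => Conc_fix_l σ
  πnu := fun h => Conc_l_inv_notMem hl hA h.1
  unr := fun x hx hfix => Conc_unr hl hA x hx hfix
  res := fun x hx hsx => Conc_res hl hA hs x hx hsx
  lag := fun f hf => Conc_lag hl hA hs f hf
  fin := fun y => Conc_fin s y

/-- `O ∩ ℚ = ℤ_(l)`. -/
theorem Conc_rat (hl : l.Prime) (hA : A.LiesOverPrime l) (x : Qb) (hx : x ∈ A)
    (hfix : ∀ σ : GQ, σ x = x) :
    ∃ q : ℚ, q ∈ GaloisRep.ratLocalizedAt l ∧ algebraMap ℚ Qb q = x := by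
  have h1 : x ∈ (⊥ : IntermediateField ℚ Qb) :=
    (InfiniteGalois.mem_bot_iff_fixed (k := ℚ) (K := Qb) x).2 hfix
  obtain ⟨q, rfl⟩ := IntermediateField.mem_bot.1 h1
  refine ⟨q, ?_, rfl⟩
  show q.den.Coprime l
  rw [Nat.coprime_comm, hl.coprime_iff_not_dvd]
  intro hd
  -- `q.num = q * q.den ∈ 𝔪_A`, and `l ∣ q.den`; so `l ∣ q.num`
  have hlv : A.valuation (l : Qb) < 1 := (ValuationSubring.mem_nonunits_iff A).1 hA
  obtain ⟨d, hd'⟩ := hd
  have h2 : ((q.num : ℤ) : Qb) = algebraMap ℚ Qb q * ((l : Qb) * (d : Qb)) := by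
    have h3 : (q.num : ℚ) = q * ((l : ℚ) * (d : ℚ)) := by
      have := Rat.mul_den_eq_num q
      rw [hd'] at this
      push_cast at this
      exact this.symm
    have h4 := congrArg (algebraMap ℚ Qb) h3
    simpa using h4
  have h5 : ((q.num : ℤ) : Qb) ∈ A.nonunits := by
    rw [h2, ValuationSubring.mem_nonunits_iff, map_mul, map_mul]
    have a1 := (A.valuation_le_one_iff _).2 hx
    have a2 : A.valuation (d : Qb) ≤ 1 := (A.valuation_le_one_iff _).2 (natCast_mem A d)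
    calc A.valuation (algebraMap ℚ Qb q) * (A.valuation (l : Qb) * A.valuation (d : Qb))
        ≤ 1 * (A.valuation (l : Qb) * 1) := by gcongr
      _ < 1 := by simpa using hlv
  -- `l ∤ q.num` by coprimality, Bezout
  have hcop : IsCoprime (q.num) (l : ℤ) := by
    have h6 : Nat.Coprime q.num.natAbs q.den := q.reduced
    have h7 : Nat.Coprime q.num.natAbs l := Nat.Coprime.coprime_dvd_right ⟨d, hd'⟩ h6
    rw [Int.isCoprime_iff_gcd_eq_one, Int.gcd_eq_natAbs, Int.natAbs_natCast]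
    exact h7
  obtain ⟨a, b, hab⟩ := hcop
  have h8 : (1 : Qb) = (a : Qb) * ((q.num : ℤ) : Qb) + (b : Qb) * (l : Qb) := by
    have := congrArg (Int.cast : ℤ → Qb) hab.symm
    push_cast at this
    exact this
  have h9 : A.valuation (1 : Qb) < 1 := by
    rw [h8]
    refine lt_of_le_of_lt (A.valuation.map_add _ _) (max_lt ?_ ?_)
    · rw [map_mul]
      exact lt_of_le_of_lt (mul_le_of_le_one_left' ((A.valuation_le_one_iff _).2 (intCast_mem A a)))
        ((ValuationSubring.mem_nonunits_iff A).1 h5)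
    · rw [map_mul]
      exact lt_of_le_of_lt (mul_le_of_le_one_left' ((A.valuation_le_one_iff _).2 (intCast_mem A b)))
        hlv
  rw [map_one] at h9
  exact lt_irrefl _ h9

end Fermat.Agent.FF19.D

end
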