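/-
TEAM FF19 -> S19, block D [DESC], CONCRETE LAYER (helper87): [GAL] the `G_ℚ`-equivariant functions on a finite
`G_ℚ`-set with open kernel span all functions.
-/
import Fermat.Agent.FF19.D.AbsSW

set_option autoImplicit false

noncomputable section

namespace Fermat.Agent.FF19.D

section

variable {X : Type} [MulAction (AlgebraicClosure ℚ ≃ₐ[ℚ] AlgebraicClosure ℚ) X]

local notation "Qb'" => AlgebraicClosure ℚ
local notation "GQ'" => (AlgebraicClosure ℚ ≃ₐ[ℚ] AlgebraicClosure ℚ)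

open Classical in
/-- the function `σ x₀ ↦ σ a`, zero outside the orbit of `x₀`. -/
def ConcGal_fn (x₀ : X) (a : Qb') : X → Qb' := fun z =>
  if h : ∃ σ : GQ', σ • x₀ = z then (Classical.choose h) a else 0

theorem ConcGal_fn_orbit (x₀ : X) (a : Qb') (ha : ∀ σ : GQ', σ • x₀ = x₀ → σ a = a) (τ : GQ') :
    ConcGal_fn x₀ a (τ • x₀) = τ a := by
  have h : ∃ σ : GQ', σ • x₀ = τ • x₀ := ⟨τ, rfl⟩
  rw [ConcGal_fn, dif_pos h]
  have h1 := Classical.choose_spec h
  have h2 : (τ⁻¹ * Classical.choose h) • x₀ = x₀ := by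
    rw [mul_smul, h1, inv_smul_smul]
  have h3 := ha _ h2
  rw [AlgEquiv.mul_apply] at h3
  have h4 := congrArg τ h3
  simpa using h4

theorem ConcGal_fn_out (x₀ : X) (a : Qb') (z : X) (hz : ¬ ∃ σ : GQ', σ • x₀ = z) :
    ConcGal_fn x₀ a z = 0 := by
  rw [ConcGal_fn, dif_neg hz]

theorem ConcGal_fn_eqv (x₀ : X) (a : Qb') (ha : ∀ σ : GQ', σ • x₀ = x₀ → σ a = a) (ρ : GQ') :
    Eqv ρ (ConcGal_fn x₀ a) := by
  intro z
  by_cases hz : ∃ σ : GQ', σ • x₀ = z
  · obtain ⟨σ, rfl⟩ := hz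
    rw [← mul_smul, ConcGal_fn_orbit x₀ a ha, ConcGal_fn_orbit x₀ a ha]
    rfl
  · have hz' : ¬ ∃ σ : GQ', σ • x₀ = ρ • z := by
      rintro ⟨σ, hσ⟩
      exact hz ⟨ρ⁻¹ * σ, by rw [mul_smul, hσ, inv_smul_smul]⟩
    rw [ConcGal_fn_out x₀ a z hz, ConcGal_fn_out x₀ a _ hz', smul_zero]

/-- the subring of equivariant functions. -/
def ConcGal_ring (X : Type) [MulAction GQ' X] : Subring (X → Qb') where
  carrier := {φ | ∀ σ : GQ', Eqv σ φ}
  mul_mem' := fun {a b} ha hb σ x => by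
    show a (σ • x) * b (σ • x) = σ • (a x * b x)
    rw [ha σ x, hb σ x, smul_mul']
  one_mem' := fun σ x => by
    show (1 : Qb') = σ • (1 : Qb')
    rw [smul_one]
  add_mem' := fun {a b} ha hb σ x => by
    show a (σ • x) + b (σ • x) = σ • (a x + b x)
    rw [ha σ x, hb σ x, smul_add]
  zero_mem' := fun σ x => by
    show (0 : Qb') = σ • (0 : Qb')
    rw [smul_zero]
  neg_mem' := fun {a} ha σ x => by
    show -a (σ • x) = σ • (-a x)
    rw [ha σ x, smul_neg]

theorem ConcGal_sep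
    (hopen : ∃ L : IntermediateField ℚ Qb', FiniteDimensional ℚ L ∧
      ∀ s : GQ', (∀ x ∈ L, s x = x) → ∀ g : X, s • g = g)
    (x y : X) (hxy : x ≠ y) : ∃ φ ∈ ConcGal_ring X, φ x ≠ φ y := by
  obtain ⟨L, hL, hLX⟩ := hopen
  have : Algebra.IsAlgebraic ℚ Qb' := AlgebraicClosure.isAlgebraic ℚ
  have : IsAlgClosure ℚ Qb' := ⟨inferInstance, inferInstance⟩
  have : Normal ℚ Qb' := IsAlgClosure.normal ℚ Qb'
  have : IsGalois ℚ Qb' := ⟨⟩
  by_cases hy : ∃ σ : GQ', σ • x = y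
  · obtain ⟨σ, rfl⟩ := hy
    -- the stabiliser of `x` is open, hence closed
    let S : Subgroup GQ' := MulAction.stabilizer GQ' x
    have hLS : L.fixingSubgroup ≤ S := by
      intro τ hτ
      exact hLX τ (fun a ha => (IntermediateField.mem_fixingSubgroup_iff L τ).1 hτ a ha) x
    have hSo : IsOpen (S : Set GQ') :=
      Subgroup.isOpen_mono hLS (IntermediateField.fixingSubgroup_isOpen L)
    have hSc : IsClosed (S : Set GQ') := Subgroup.isClosed_of_isOpen S hSo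
    have hfix := InfiniteGalois.fixingSubgroup_fixedField (k := ℚ) (K := Qb') ⟨S, hSc⟩
    have hσ : σ ∉ S := fun h => hxy (Eq.symm h)
    have hσ' : σ ∉ (IntermediateField.fixedField S).fixingSubgroup := by
      intro h
      apply hσ
      have : σ ∈ (IntermediateField.fixedField
          ((⟨S, hSc⟩ : ClosedSubgroup GQ') : Subgroup GQ')).fixingSubgroup := h
      rw [hfix] at this
      exact this
    rw [IntermediateField.mem_fixingSubgroup_iff] at hσ'
    push Not at hσ'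
    obtain ⟨a, ha, hσa⟩ := hσ'
    have ha' : ∀ τ : GQ', τ • x = x → τ a = a := by
      intro τ hτ
      exact (IntermediateField.mem_fixedField_iff S a).1 ha τ hτ
    refine ⟨ConcGal_fn x a, ConcGal_fn_eqv x a ha', ?_⟩
    have h1 := ConcGal_fn_orbit x a ha' 1
    rw [one_smul] at h1
    rw [h1, ConcGal_fn_orbit x a ha' σ]
    exact fun h => hσa h.symm
  · have ha' : ∀ τ : GQ', τ • x = x → τ (1 : Qb') = 1 := fun τ _ => map_one τ
    refine ⟨ConcGal_fn x 1, ConcGal_fn_eqv x 1 ha', ?_⟩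
    have h1 := ConcGal_fn_orbit x 1 ha' 1
    rw [one_smul] at h1
    rw [h1, ConcGal_fn_out x 1 y hy]
    simp

/-- **[GAL]** -/
theorem conc_gal [Finite X]
    (hopen : ∃ L : IntermediateField ℚ Qb', FiniteDimensional ℚ L ∧
      ∀ s : GQ', (∀ x ∈ L, s x = x) → ∀ g : X, s • g = g) :
    Submodule.span Qb' {φ : X → Qb' | ∀ s : GQ', Eqv s φ} = ⊤ :=
  stmt_SW Qb' X (ConcGal_ring X) (ConcGal_sep hopen)

end

end Fermat.Agent.FF19.D

end
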