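/-
TEAM FF19 -> S19, block D [DESC] (helper38).  PACKAGING:
(a) `Pack_adapter` : helper23's `Ord.IsLocOrd ↥I O G R` gives `D.IsLocOrd I O R.toSubring`;
(b) `Pack_order`   : a `GoodBasis` gives a `ℤ_(l)`-order `Hopf.IsOrder`;
(c) `desc_of`      : abstract descent theorem + arithmetic hypotheses ==> `Hopf.IsOrder`.
-/
import Fermat.Agent.FF19.D.AbsDefs
import Fermat.Agent.FF19.Hopf.Defs
import Fermat.Agent.FF19.Ord.Core

set_option autoImplicit false

noncomputable section

namespace Fermat.Agent.FF19.D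

open Fermat.Agent.FF19.Hopf (Qb GQ Rl IsOrder HasComul)

/-! ### (a) the adapter -/

theorem Pack_adapter {K Γ G : Type} [Field K] [Group Γ] [MulSemiringAction Γ K] [AddCommGroup G]
    [DistribMulAction Γ G] (I : Subgroup Γ) (O : Subring K) (R : Subalgebra O (G → K))
    (hR : Ord.IsLocOrd (↥I) O G R) : IsLocOrd I O R.toSubring := by
  refine ⟨?_, ?_, ?_, ?_, ?_⟩
  · intro c hc
    exact R.algebraMap_mem (⟨c, hc⟩ : O)
  · intro φ hφ τ hτ x
    exact hR.equiv φ hφ ⟨τ, hτ⟩ x
  · obtain ⟨n, b, hb⟩ := Submodule.fg_iff_exists_fin_generating_family.1 hR.fg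
    refine ⟨n, b, ?_, ?_⟩
    · intro i
      have : b i ∈ Subalgebra.toSubmodule R := by
        rw [← hb]
        exact Submodule.subset_span ⟨i, rfl⟩
      exact this
    · intro φ hφ
      have h1 : φ ∈ Submodule.span O (Set.range b) := by
        rw [hb]
        exact hφ
      obtain ⟨c, hc⟩ := (Submodule.mem_span_range_iff_exists_fun O).1 h1
      refine ⟨fun i => (c i : K), fun i => (c i).2, ?_⟩
      rw [← hc]
      rfl
  · exact hR.sep
  · exact hR.comul

/-! ### (b) from a good basis to an order over `ℤ_(l)` -/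

theorem Pack_algebraMap (l : ℕ) (r : Rl l) : algebraMap (Rl l) Qb r = algebraMap ℚ Qb (r : ℚ) := rfl

theorem Pack_smul_apply (l : ℕ) {G : Type} (r : Rl l) (φ : G → Qb) (x : G) :
    (r • φ) x = algebraMap ℚ Qb (r : ℚ) * φ x := by
  rw [Pi.smul_apply, Algebra.smul_def, Pack_algebraMap]

theorem Pack_order (l : ℕ) (O : Subring Qb)
    (hO : ∀ x ∈ O, (∀ σ : GQ, σ • x = x) → ∃ r : Rl l, algebraMap ℚ Qb (r : ℚ) = x)
    (G : Type) [AddCommGroup G] [Finite G] [DistribMulAction GQ G] (n : ℕ) (e : Fin n → G → Qb)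
    (he : GoodBasis (Γ := GQ) O n e) :
    ∃ H : Subalgebra (Rl l) (G → Qb), IsOrder l G (fun σ g => σ • g) H := by
  classical
  obtain ⟨heq, -, hspan, hone, hmul, hcom⟩ := he
  set p : Submodule (Rl l) (G → Qb) := Submodule.span (Rl l) (Set.range e) with hp
  have hep : ∀ i, e i ∈ p := fun i => Submodule.subset_span ⟨i, rfl⟩
  -- combinations with good coefficients lie in `p`
  have hcomb : ∀ c : Fin n → Qb, (∀ i, c i ∈ O ∧ ∀ σ : GQ, σ • c i = c i) → ∑ i, c i • e i ∈ p := by
    intro c hc
    refine Submodule.sum_mem _ fun i _ => ?_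
    obtain ⟨r, hr⟩ := hO (c i) (hc i).1 (hc i).2
    have : c i • e i = r • e i := by
      funext x
      rw [Pack_smul_apply, hr]
      rfl
    rw [this]
    exact p.smul_mem r (hep i)
  have h1 : (1 : G → Qb) ∈ p := by
    obtain ⟨c, hc, h⟩ := hone
    rw [h]
    exact hcomb c hc
  have hmulp : ∀ x y, x ∈ p → y ∈ p → x * y ∈ p := by
    intro x y hx hy
    have h2 : x * y ∈ p * p := Submodule.mul_mem_mul hx hy
    have h3 : p * p ≤ p := by
      rw [hp, Submodule.span_mul_span, Submodule.span_le]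
      rintro _ ⟨_, ⟨i, rfl⟩, _, ⟨j, rfl⟩, rfl⟩
      obtain ⟨c, hc, h⟩ := hmul i j
      change e i * e j ∈ p
      rw [h]
      exact hcomb c hc
    exact h3 h2
  refine ⟨p.toSubalgebra h1 hmulp, ?_, ?_, ?_, ?_, ?_, ?_⟩
  · intro σ
    exact MulAction.surjective σ
  · intro σ
    exact smul_zero σ
  · intro φ hφ σ
    have hφ' : φ ∈ p := hφ
    induction hφ' using Submodule.span_induction with
    | mem φ h =>
      obtain ⟨i, rfl⟩ := h
      intro x
      exact heq i σ x
    | zero => intro x; simp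
    | add φ ψ _ _ h1 h2 =>
      intro x
      rw [Pi.add_apply, Pi.add_apply, h1 (Submodule.span_induction (p := fun z _ => z ∈ p)
        (fun z hz => Submodule.subset_span hz) p.zero_mem (fun _ _ _ _ => p.add_mem)
        (fun a _ _ => p.smul_mem a) ‹_›), h2 (Submodule.span_induction (p := fun z _ => z ∈ p)
        (fun z hz => Submodule.subset_span hz) p.zero_mem (fun _ _ _ _ => p.add_mem)
        (fun a _ _ => p.smul_mem a) ‹_›), map_add]
    | smul r φ _ h =>
      intro x
      rw [Pack_smul_apply, Pack_smul_apply, h (Submodule.span_induction (p := fun z _ => z ∈ p)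
        (fun z hz => Submodule.subset_span hz) p.zero_mem (fun _ _ _ _ => p.add_mem)
        (fun a _ _ => p.smul_mem a) ‹_›), map_mul, AlgEquiv.commutes]
  · have : p.FG := ⟨(Finset.univ.image e), by rw [hp]; simp⟩
    exact (Module.Finite.iff_fg (N := p)).2 this
  · intro x y hxy
    by_contra hcon
    push Not at hcon
    have h2 : ∀ ψ : G → Qb, ψ x = ψ y := by
      intro ψ
      have hψ : ψ ∈ Submodule.span Qb (Set.range e) := by rw [hspan]; trivial
      induction hψ using Submodule.span_induction with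
      | mem φ h =>
        obtain ⟨i, rfl⟩ := h
        exact hcon (e i) (hep i)
      | zero => rfl
      | add φ ψ _ _ h1 h2 => rw [Pi.add_apply, Pi.add_apply, h1, h2]
      | smul r φ _ h => rw [Pi.smul_apply, Pi.smul_apply, h]
    have h3 := h2 (Pi.single x 1)
    rw [Pi.single_eq_same, Pi.single_eq_of_ne (Ne.symm hxy)] at h3
    exact one_ne_zero h3
  · intro φ hφ
    have hφ' : φ ∈ Submodule.span (Rl l) (Set.range e) := hφ
    obtain ⟨r, hr⟩ := (Submodule.mem_span_range_iff_exists_fun (Rl l)).1 hφ'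
    choose c hc hce using hcom
    refine ⟨n, fun k => ∑ i, r i • ∑ j, c i j k • e j, e, ?_, hep, ?_⟩
    · intro k
      refine Submodule.sum_mem p fun i _ => p.smul_mem _ ?_
      exact hcomb (fun j => c i j k) fun j => hc i j k
    · intro x y
      rw [← hr]
      have hL : (∑ i, r i • e i) (x + y)
          = ∑ i, ∑ j, ∑ k, algebraMap ℚ Qb (r i : ℚ) * (c i j k * (e j x * e k y)) := by
        rw [Finset.sum_apply]
        refine Finset.sum_congr rfl fun i _ => ?_
        rw [Pack_smul_apply, hce, Finset.mul_sum]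
        refine Finset.sum_congr rfl fun j _ => ?_
        rw [Finset.mul_sum]
      have hR : ∀ k, (∑ i, r i • ∑ j, c i j k • e j) x * e k y
          = ∑ i, ∑ j, algebraMap ℚ Qb (r i : ℚ) * (c i j k * (e j x * e k y)) := by
        intro k
        rw [Finset.sum_apply, Finset.sum_mul]
        refine Finset.sum_congr rfl fun i _ => ?_
        rw [Pack_smul_apply, Finset.sum_apply, Finset.mul_sum, Finset.sum_mul]
        refine Finset.sum_congr rfl fun j _ => ?_
        rw [Pi.smul_apply, smul_eq_mul]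
        ring
      rw [hL, Finset.sum_congr rfl fun k _ => hR k]
      conv_rhs => rw [Finset.sum_comm]
      refine Finset.sum_congr rfl fun i _ => ?_
      rw [Finset.sum_comm]

/-! ### (c) the descent theorem, modulo the arithmetic hypotheses -/

theorem desc_of (hAbs : Stmt_AbsMain) (l : ℕ) (I : Subgroup GQ) (s : GQ) (O : Subring Qb)
    (hH : AbsHyp I s O (l : Qb))
    (hO : ∀ x ∈ O, (∀ σ : GQ, σ • x = x) → ∃ r : Rl l, algebraMap ℚ Qb (r : ℚ) = x)
    (G : Type) [AddCommGroup G] [Finite G] [DistribMulAction GQ G]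
    (hGal : Submodule.span Qb {φ : G → Qb | ∀ σ : GQ, Eqv σ φ} = ⊤)
    (R : Subalgebra O (G → Qb)) (hR : Ord.IsLocOrd (↥I) O G R) :
    ∃ H : Subalgebra (Rl l) (G → Qb), IsOrder l G (fun σ g => σ • g) H := by
  obtain ⟨n, e, he⟩ := hAbs Qb GQ G I s O (l : Qb) R.toSubring hH hGal (Pack_adapter I O R hR)
  exact Pack_order l O hO G n e he

end Fermat.Agent.FF19.D

end
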