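/-
TEAM FF19 -> S19, block D [DESC]: FINAL ASSEMBLY (helper87) of helper38's abstract core (`Abs*.lean`, `Pack.lean`) and of
the concrete layer (`Conc.lean`, `ConcGal.lean`).  UNCONDITIONAL.
-/
import Fermat.Agent.FF19.D.AbsInd
import Fermat.Agent.FF19.D.AbsP1
import Fermat.Agent.FF19.D.AbsP2
import Fermat.Agent.FF19.D.AbsP3
import Fermat.Agent.FF19.D.AbsP4
import Fermat.Agent.FF19.D.AbsP5a
import Fermat.Agent.FF19.D.AbsP5b
import Fermat.Agent.FF19.D.AbsP5c
import Fermat.Agent.FF19.D.AbsSW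
import Fermat.Agent.FF19.D.Pack
import Fermat.Agent.FF19.D.Conc
import Fermat.Agent.FF19.D.ConcGal
import Fermat.Agent.FD.D

set_option autoImplicit false

noncomputable section

namespace Fermat.Agent.FF19.D

open Fermat.Agent.FF19.Hopf (Rl IsOrder)

/-- the abstract descent theorem, unconditional. -/
theorem all_AbsMain : Stmt_AbsMain :=
  absMain_of stmt_P1 stmt_P2 (stmt_P5a stmt_FIX (stmt_P3 stmt_SW stmt_FIX) stmt_P4)
    (stmt_P5b stmt_IND) (stmt_P5c stmt_SW stmt_FIX)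

/-- **OUTPUT OF BLOCK D** (input in the shape of block R, `Ord.IsLocOrd` with `Γ := ↥I`, `O := OI A = A ∩ ℚ̄^I`). -/
theorem all_Desc (l : ℕ) (hl : l.Prime) (A : ValuationSubring Qb) (hA : A.LiesOverPrime l)
    (G : Type) [AddCommGroup G] [Finite G] [DistribMulAction GQ G]
    (hopen : ∃ L : IntermediateField ℚ Qb, FiniteDimensional ℚ L ∧
      ∀ s : GQ, (∀ x ∈ L, s x = x) → ∀ g : G, s • g = g)
    (R : Subalgebra (OI A) (G → Qb)) (hR : Ord.IsLocOrd ↥(A.inertiaSubgroupIn ℚ) (OI A) G R) :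
    ∃ H : Subalgebra (Rl l) (G → Qb), IsOrder l G (fun σ g => σ • g) H := by
  obtain ⟨s, hs, -⟩ := FD.D_exists_frobenius_at A hl hA
  refine desc_of all_AbsMain l (A.inertiaSubgroupIn ℚ) s (OI A) (conc_hyp hl hA hs) ?_ G
    (conc_gal hopen) R hR
  intro x hx hfix
  obtain ⟨q, hq, hqx⟩ := Conc_rat hl hA x hx.1 hfix
  exact ⟨⟨q, hq⟩, hqx⟩

end Fermat.Agent.FF19.D

end
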