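/-
TEAM FF19 -> S19 (+S32), block D [DESC] (architect helper56; deputies helper38 = abstract core `AbsDefs.lean` + `Pack.lean`,
helper87 = concrete layer).   THE CONTRACT OF THE BLOCK: `Stmt_Desc`.
-/
import Fermat.Agent.FF19.D.AbsDefs
import Fermat.Agent.FF19.Hopf.Defs
import Fermat.Agent.FF19.Ord.Core
import Fermat.Prelude.Def_FLTPrelim_Ramification

set_option autoImplicit false

noncomputable section

namespace Fermat.Agent.FF19.D

open Fermat.Agent.FF19.Hopf (Qb GQ Rl IsOrder)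

/-- `O = A ∩ ℚ̄^I`. -/
def OA (A : ValuationSubring Qb) : Subring Qb where
  carrier := {a | a ∈ A ∧ ∀ σ ∈ A.inertiaSubgroupIn ℚ, σ a = a}
  mul_mem' := fun {a b} ha hb => ⟨A.mul_mem _ _ ha.1 hb.1, fun σ hσ => by
    rw [map_mul, ha.2 σ hσ, hb.2 σ hσ]⟩
  one_mem' := ⟨A.one_mem, fun σ _ => map_one σ⟩
  add_mem' := fun {a b} ha hb => ⟨A.add_mem _ _ ha.1 hb.1, fun σ hσ => by
    rw [map_add, ha.2 σ hσ, hb.2 σ hσ]⟩
  zero_mem' := ⟨A.zero_mem, fun σ _ => map_zero σ⟩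
  neg_mem' := fun {a} ha => ⟨A.neg_mem _ ha.1, fun σ hσ => by rw [map_neg, ha.2 σ hσ]⟩

lemma mem_OA (A : ValuationSubring Qb) (a : Qb) :
    a ∈ OA A ↔ a ∈ A ∧ ∀ σ ∈ A.inertiaSubgroupIn ℚ, σ a = a := Iff.rfl

/-- a subring with the defining property of `OA A` is `OA A`. -/
lemma eq_OA (A : ValuationSubring Qb) (O : Subring Qb)
    (hO : ∀ a : Qb, a ∈ O ↔ a ∈ A ∧ ∀ σ ∈ A.inertiaSubgroupIn ℚ, σ a = a) : O = OA A := by
  ext a; rw [hO, mem_OA]

/-- the action of `G_ℚ` on `G` has an open kernel. -/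
def OpenKer (G : Type) [AddCommGroup G] [DistribMulAction GQ G] : Prop :=
  ∃ L : IntermediateField ℚ Qb, FiniteDimensional ℚ L ∧
    ∀ σ : GQ, (∀ a ∈ L, σ a = a) → ∀ g : G, σ • g = g

/-- **OUTPUT OF BLOCK D** (input in the shape of block R: `Ord.IsLocOrd`, `Γ := ↥I`, the action of `↥I` on `ℚ̄` and on `G`
being the restriction of the action of `G_ℚ`). -/
def Stmt_Desc : Prop :=
  ∀ (l : ℕ) [Fact l.Prime] (A : ValuationSubring Qb), A.LiesOverPrime l →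
    ∀ (O : Subring Qb), (∀ a : Qb, a ∈ O ↔ a ∈ A ∧ ∀ σ ∈ A.inertiaSubgroupIn ℚ, σ a = a) →
    ∀ (G : Type) [AddCommGroup G] [Finite G] [DistribMulAction GQ G], OpenKer G →
    ∀ R : Subalgebra O (G → Qb), Ord.IsLocOrd ↥(A.inertiaSubgroupIn ℚ) O G R →
    ∃ H : Subalgebra (Rl l) (G → Qb), IsOrder l G (fun (σ : GQ) (x : G) => σ • x) H

end Fermat.Agent.FF19.D

end
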