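/-
TEAM FF19 -> S19 (+S32), block D [DESC]: the contract `Stmt_Desc` of `D/Defs.lean`, unconditionally (adapter on `D/All.lean`).
-/
import Fermat.Agent.FF19.D.Defs
import Fermat.Agent.FF19.D.All

set_option autoImplicit false

noncomputable section

namespace Fermat.Agent.FF19.D

/-- **BLOCK D, unconditionally, in the form of the contract `Stmt_Desc`.** -/
theorem final_Desc : Stmt_Desc := by
  intro l hl A hA O hO G _ _ _ hopen R hR
  have hOeq : O = OI A := by
    ext a; rw [hO, mem_OI]
  subst hOeq
  exact all_Desc l hl.out A hA G hopen R hR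

end Fermat.Agent.FF19.D

end
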