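/-
TEAM FF19 -> S19, block D [DESC]: the contract `Top.Stmt_DescT` of TOP (helper84), unconditionally (helper56).
-/
import Fermat.Agent.FF19.D.Final
import Fermat.Agent.FF19.Top.Interface

set_option autoImplicit false

noncomputable section

namespace Fermat.Agent.FF19.D

/-- **BLOCK D in the form used by TOP, unconditionally.** -/
theorem descT : Top.Stmt_DescT := by
  intro l hl A hA G _ _ act h1 hmul hadd hopen inst hsm hR
  obtain ⟨R, hR⟩ := hR
  have : Fact l.Prime := ⟨hl⟩
  have h0 : ∀ σ, act σ 0 = 0 := by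
    intro σ
    have h := hadd σ 0 0
    rw [add_zero] at h
    exact left_eq_add.mp h
  let dma : DistribMulAction Hopf.GQ G :=
    { smul := act
      one_smul := h1
      mul_smul := hmul
      smul_zero := h0
      smul_add := hadd }
  have hO : ∀ a : Hopf.Qb, a ∈ Top.OI A ↔ a ∈ A ∧ ∀ σ ∈ A.inertiaSubgroupIn ℚ, σ a = a := by
    intro a
    constructor
    · intro h
      exact ⟨h.1, fun σ hσ => h.2 ⟨σ, hσ⟩⟩
    · intro h
      exact ⟨h.1, fun σ => h.2 σ.1 σ.2⟩
  have hK : OpenKer G := by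
    obtain ⟨L, hL, hLx⟩ := hopen
    refine ⟨L, hL, fun σ hσ g => hLx σ ?_ g⟩
    rw [IntermediateField.mem_fixingSubgroup_iff]
    exact hσ
  have hR' : @Ord.IsLocOrd ↥(A.inertiaSubgroupIn ℚ) Hopf.Qb _ _ _ (Top.OI A) G _
      Subgroup.instMulAction R :=
    @Ord.IsLocOrd.mk ↥(A.inertiaSubgroupIn ℚ) Hopf.Qb _ _ _ (Top.OI A) G _
      Subgroup.instMulAction R
      (fun φ hφ σ x => by
        have h := hR.equiv φ hφ σ x
        rw [hsm] at h
        exact h) hR.fg hR.sep hR.comul
  exact final_Desc l A hA (Top.OI A) hO G hK R hR'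

end Fermat.Agent.FF19.D

end
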